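import Mathlib
import Fermat.Agent.S20.Defs
import Fermat.Agent.S24.JPoly
import Fermat.Agent.S24.CuspOrd
import Fermat.Agent.S24.PsiLe

set_option autoImplicit false

/-!
# S16 / Bridge (B0): the hypothesis package `IsModFun` and its analytic feeders

* `IsModFun N f`: `f` is holomorphic on `ℍ`, `Γ₀(N)`-invariant and every `SL(2,ℤ)`-translate has a
  finite-pole `q_N`-expansion (`JPoly.HasRatExp N ⊤`).
* `HasRatExp.inv`: a nowhere vanishing holomorphic function with a finite-pole `q_N`-expansion has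
  an inverse with a finite-pole `q_N`-expansion.
* `IsMF.hasRatExp_slash`: every `SL(2,ℤ)`-slash of a modular form on `Γ₀(N)` has a `q_N`-expansion.
* `isModFun_div_of_isMF`: the quotient of two modular forms of the same weight on `Γ₀(N)`, the
  denominator nowhere zero on `ℍ`, is an `IsModFun`.
-/

namespace Fermat.Agent.S16.Bridge

open UpperHalfPlane Filter Topology Function CongruenceSubgroup
open scoped MatrixGroups Manifold ModularForm
open Fermat.Agent.S24.JPoly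

noncomputable section

local notation "𝕢" => Periodic.qParam

/-! ### `q_N`-expansions of `N`-periodic bounded holomorphic functions -/

theorem qq_vadd_period (N : ℕ) [NeZero N] (z : ℍ) : qq N ((N : ℝ) +ᵥ z) = qq N z :=
  Fermat.Agent.S24.qParam_vadd_period (natCast_pos' N) z

/-- A holomorphic `N`-periodic function bounded at `i∞` has a `q_N`-expansion. -/
theorem rep_of_bounded_level (N : ℕ) [NeZero N] {g : ℍ → ℂ} (hg : MDiff g)
    (hper : ∀ z : ℍ, g ((N : ℝ) +ᵥ z) = g z) (hbd : IsBoundedAtImInfty g) :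
    Rep N (UpperHalfPlane.qExpansion (N : ℝ) g) g := fun z => by
  have := UpperHalfPlane.hasSum_qExpansion (natCast_pos' N)
    (Fermat.Agent.S24.cuspOrd_periodic_comp_ofComplex hper) hg hbd z
  simpa [qq, smul_eq_mul] using this

theorem rep_periodic {N : ℕ} [NeZero N] {p : PowerSeries ℂ} {g : ℍ → ℂ} (h : Rep N p g) (z : ℍ) :
    g ((N : ℝ) +ᵥ z) = g z := by
  have h1 := h ((N : ℝ) +ᵥ z)
  rw [qq_vadd_period] at h1
  exact h1.unique (h z)

theorem rep_isBounded {N : ℕ} [NeZero N] {p : PowerSeries ℂ} {g : ℍ → ℂ} (h : Rep N p g) :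
    IsBoundedAtImInfty g :=
  UpperHalfPlane.isBoundedAtImInfty_of_hasSum_qExpansion (h := (N : ℝ))
    (c := fun n => PowerSeries.coeff n p) (natCast_pos' N)
    (fun τ => by simpa [qq, smul_eq_mul] using h τ)

/-- Dividing a `q_N`-expansion by `q_N ^ k`. -/
theorem rep_div_X_pow {N : ℕ} {u : PowerSeries ℂ} {g g' : ℍ → ℂ} (k : ℕ)
    (h : Rep N (PowerSeries.X ^ k * u) g) (hg : ∀ z, g z = g' z * qq N z ^ k) : Rep N u g' :=
  fun z => by
  have h1 := (hasSum_nat_add_iff' k).mpr (h z)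
  have h0 : ∑ i ∈ Finset.range k,
      PowerSeries.coeff i (PowerSeries.X ^ k * u) * qq N z ^ i = 0 := by
    refine Finset.sum_eq_zero fun i hi => ?_
    rw [PowerSeries.coeff_X_pow_mul', if_neg (by simpa using Finset.mem_range.mp hi), zero_mul]
  rw [h0, sub_zero] at h1
  have h2 := h1.mul_right (qq N z ^ k)⁻¹
  have hk : qq N z ^ k ≠ 0 := pow_ne_zero _ (qq_ne_zero N z)
  rw [hg z, mul_assoc, mul_inv_cancel₀ hk, mul_one] at h2
  have hfun : (fun n : ℕ => PowerSeries.coeff n u * qq N z ^ n) =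
      fun i : ℕ => PowerSeries.coeff (i + k) (PowerSeries.X ^ k * u) * qq N z ^ (i + k)
        * (qq N z ^ k)⁻¹ := by
    funext n
    rw [PowerSeries.coeff_X_pow_mul', if_pos (Nat.le_add_left _ _), Nat.add_sub_cancel, pow_add,
      mul_assoc, mul_assoc, mul_inv_cancel₀ hk, mul_one]
  rw [hfun]
  exact h2

/-- The inverse of a nowhere vanishing holomorphic function which has a `q_N`-expansion with
non-zero constant term has a `q_N`-expansion. -/
theorem rep_inv_of_ne_zero {N : ℕ} [NeZero N] {u : PowerSeries ℂ} {g : ℍ → ℂ} (hg : MDiff g)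
    (hrep : Rep N u g) (hne : ∀ z, g z ≠ 0) (hu : PowerSeries.coeff 0 u ≠ 0) :
    ∃ c : PowerSeries ℂ, Rep N c (fun z => (g z)⁻¹) := by
  have hN : (0 : ℝ) < (N : ℝ) := natCast_pos' N
  have hper : Periodic (g ∘ ofComplex) ((N : ℝ) : ℂ) :=
    Fermat.Agent.S24.cuspOrd_periodic_comp_ofComplex (rep_periodic hrep)
  have hbd : IsBoundedAtImInfty g := rep_isBounded hrep
  set G : ℂ → ℂ := UpperHalfPlane.cuspFunction (N : ℝ) g with hG
  have hGd : DifferentiableOn ℂ G (Metric.ball 0 1) :=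
    UpperHalfPlane.differentiableOn_cuspFunction_ball hN hper hg hbd
  have hGq : ∀ τ : ℍ, G (𝕢 (N : ℝ) τ) = g τ := fun τ =>
    UpperHalfPlane.eq_cuspFunction τ hN.ne' hper
  have hG0 : G 0 = PowerSeries.coeff 0 u := by
    rw [hG, UpperHalfPlane.cuspFunction_apply_zero hN
      (UpperHalfPlane.analyticAt_cuspFunction_zero hN hper hg hbd) hper]
    exact hrep.tendsto.limUnder_eq
  have hGne : ∀ q ∈ Metric.ball (0 : ℂ) 1, G q ≠ 0 := fun q hq => by
    rcases eq_or_ne q 0 with rfl | hq0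
    · rw [hG0]; exact hu
    · obtain ⟨τ, hτ⟩ := Fermat.Agent.S24.exists_qParam_eq hN hq0 (by simpa using hq)
      rw [← hτ, hGq]; exact hne τ
  have hFd : DifferentiableOn ℂ (fun q => (G q)⁻¹) (Metric.ball 0 1) := hGd.inv hGne
  refine ⟨PowerSeries.mk fun n => ((n.factorial : ℂ))⁻¹ * iteratedDeriv n (fun q => (G q)⁻¹) 0,
    fun z => ?_⟩
  have hz : qq N z ∈ Metric.ball (0 : ℂ) 1 := by simpa using norm_qq_lt_one N z
  have := Complex.hasSum_taylorSeries_on_ball hFd hz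
  simp only [sub_zero, smul_eq_mul] at this
  have hval : (G (qq N z))⁻¹ = (g z)⁻¹ := by rw [qq, hGq]
  rw [hval] at this
  have hfun : (fun n : ℕ => PowerSeries.coeff n (PowerSeries.mk fun n =>
      ((n.factorial : ℂ))⁻¹ * iteratedDeriv n (fun q => (G q)⁻¹) 0) * qq N z ^ n) =
      fun n : ℕ => ((n.factorial : ℂ))⁻¹ * (qq N z ^ n * iteratedDeriv n (fun q => (G q)⁻¹) 0) := by
    funext n
    rw [PowerSeries.coeff_mk]; ring
  rw [hfun]
  exact this

/-- A nowhere vanishing holomorphic function with a `q_N`-expansion has an inverse with a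
finite-pole `q_N`-expansion, the pole order being the order of the power series. -/
theorem rep_inv_of_ne_zero' {N : ℕ} [NeZero N] (k : ℕ) :
    ∀ {u : PowerSeries ℂ} {g : ℍ → ℂ}, MDiff g → Rep N (PowerSeries.X ^ k * u) g → (∀ z, g z ≠ 0) →
      PowerSeries.coeff 0 u ≠ 0 → ∃ c : PowerSeries ℂ, Rep N c (fun z => (g z)⁻¹ * qq N z ^ k) := by
  intro u g hg hrep hne hu
  set g' : ℍ → ℂ := fun z => g z / qq N z ^ k with hg'
  have hk : ∀ z, qq N z ^ k ≠ 0 := fun z => pow_ne_zero _ (qq_ne_zero N z)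
  have hrep' : Rep N u g' := rep_div_X_pow k hrep fun z => by
    simp only [hg']; rw [div_mul_cancel₀ _ (hk z)]
  have hg'd : MDiff g' := by
    have h1 : MDiff (fun z => qq N z ^ k) := (mdiff_qq N).pow k
    exact hg.div h1 hk
  have hne' : ∀ z, g' z ≠ 0 := fun z => div_ne_zero (hne z) (hk z)
  obtain ⟨c, hc⟩ := rep_inv_of_ne_zero hg'd hrep' hne' hu
  refine ⟨c, hc.congr fun z => ?_⟩
  simp only [hg']
  rw [inv_div, div_eq_mul_inv, mul_comm]

theorem rep_zero_eq {N : ℕ} {g : ℍ → ℂ} (h : Rep N 0 g) (z : ℍ) : g z = 0 := by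
  have h1 := h z
  simp only [map_zero, zero_mul] at h1
  exact h1.unique hasSum_zero

/-- **Inverses.**  A nowhere vanishing holomorphic function with a finite-pole `q_N`-expansion has
an inverse with a finite-pole `q_N`-expansion. -/
theorem hasRatExp_inv {N : ℕ} [NeZero N] {h : ℍ → ℂ} (hmd : MDiff h) (hne : ∀ z, h z ≠ 0)
    (hh : HasRatExp N ⊤ h) : HasRatExp N ⊤ (fun z => (h z)⁻¹) := by
  obtain ⟨m, p, -, hr⟩ := hh
  have hm : ∀ z, qq N z ^ m ≠ 0 := fun z => pow_ne_zero _ (qq_ne_zero N z)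
  have hgd : MDiff (fun z => h z * qq N z ^ m) := hmd.mul ((mdiff_qq N).pow m)
  have hgne : ∀ z, h z * qq N z ^ m ≠ 0 := fun z => mul_ne_zero (hne z) (hm z)
  have hp : p ≠ 0 := by
    rintro rfl
    exact hgne UpperHalfPlane.I (rep_zero_eq hr _)
  have hu : PowerSeries.coeff 0 (PowerSeries.divXPowOrder p) ≠ 0 := by
    rw [PowerSeries.coeff_zero_eq_constantCoeff_apply]
    exact fun h0 => hp (PowerSeries.constantCoeff_divXPowOrder_eq_zero_iff.mp h0)
  have hr' : Rep N (PowerSeries.X ^ p.order.toNat * PowerSeries.divXPowOrder p)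
      (fun z => h z * qq N z ^ m) := by
    rw [PowerSeries.X_pow_order_mul_divXPowOrder]; exact hr
  obtain ⟨c, hc⟩ := rep_inv_of_ne_zero' p.order.toNat hgd hr' hgne hu
  refine ⟨p.order.toNat, c * PowerSeries.X ^ m, CoeffIn.top _, ?_⟩
  refine (hc.mul (Rep.X.pow m)).congr fun z => ?_
  rw [mul_inv]
  have := hm z
  field_simp

/-! ### Change of level `N ∣ M` for expansions -/

theorem qq_pow_of_mul (N d : ℕ) [NeZero N] [NeZero d] (z : ℍ) : qq (N * d) z ^ d = qq N z := by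
  rw [qq_eq_expFn, qq_eq_expFn]
  unfold Fermat.Agent.S20.expFn
  rw [← Complex.exp_nat_mul]
  congr 1
  have hN : (N : ℂ) ≠ 0 := Nat.cast_ne_zero.mpr (NeZero.ne N)
  have hd : (d : ℂ) ≠ 0 := Nat.cast_ne_zero.mpr (NeZero.ne d)
  push_cast
  field_simp

/-- A `q_N`-expansion is a `q_{N d}`-expansion. -/
theorem rep_of_mul (N d : ℕ) [NeZero N] [NeZero d] {p : PowerSeries ℂ} {g : ℍ → ℂ}
    (h : Rep N p g) :
    Rep (N * d) (PowerSeries.mk fun k => if d ∣ k then PowerSeries.coeff (k / d) p else 0) g :=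
  fun z => by
  have hd : 0 < d := Nat.pos_of_ne_zero (NeZero.ne d)
  have hinj : Function.Injective (fun k : ℕ => d * k) := fun a b hab =>
    Nat.eq_of_mul_eq_mul_left hd hab
  have hout : ∀ n ∉ Set.range (fun k : ℕ => d * k),
      PowerSeries.coeff n (PowerSeries.mk fun k => if d ∣ k then PowerSeries.coeff (k / d) p else 0)
        * qq (N * d) z ^ n = 0 := fun n hn => by
    have : ¬ d ∣ n := fun ⟨k, hk⟩ => hn ⟨k, hk.symm⟩
    rw [PowerSeries.coeff_mk, if_neg this, zero_mul]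
  refine (hinj.hasSum_iff hout).mp ?_
  convert h z using 2 with k
  simp only [comp_apply, PowerSeries.coeff_mk]
  rw [if_pos (dvd_mul_right d k), Nat.mul_div_cancel_left k hd, pow_mul, qq_pow_of_mul]

theorem hasRatExp_of_mul (N d : ℕ) [NeZero N] [NeZero d] {A : Subring ℂ} {g : ℍ → ℂ}
    (h : HasRatExp N A g) : HasRatExp (N * d) A g := by
  obtain ⟨m, p, hp, hr⟩ := h
  refine ⟨d * m, _, fun k => ?_, (rep_of_mul N d hr).congr fun z => ?_⟩
  · rw [PowerSeries.coeff_mk]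
    split_ifs
    · exact hp _
    · exact A.zero_mem
  · rw [pow_mul, qq_pow_of_mul]

theorem hasRatExp_of_dvd {N M : ℕ} [NeZero N] [NeZero M] (hNM : N ∣ M) {A : Subring ℂ}
    {g : ℍ → ℂ} (h : HasRatExp N A g) : HasRatExp M A g := by
  obtain ⟨d, rfl⟩ := hNM
  have : NeZero d := ⟨fun h0 => NeZero.ne (N * d) (by rw [h0, mul_zero])⟩
  exact hasRatExp_of_mul N d h

/-! ### Slashes of modular forms on `Γ₀(N)` -/

theorem conj_T_pow_mem (N : ℕ) (δ : SL(2, ℤ)) :
    δ * ModularGroup.T ^ (N : ℤ) * δ⁻¹ ∈ Gamma0 N := by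
  have h1 : ModularGroup.T ^ (N : ℤ) ∈ Gamma N := by
    simpa using ModularGroup_T_pow_mem_Gamma (N : ℤ) (N : ℤ) dvd_rfl
  have h2 := (Gamma_normal N).conj_mem _ h1 δ
  rw [Gamma_mem] at h2
  rw [Gamma0_mem]; exact h2.2.2.1

/-- Slashes of a `Γ₀(N)`-slash-invariant function are `N`-periodic. -/
theorem slash_periodic {N : ℕ} {k : ℤ} {f : ℍ → ℂ}
    (hinv : ∀ γ ∈ Gamma0 N, f ∣[k] (γ : SL(2, ℤ)) = f) (δ : SL(2, ℤ)) (z : ℍ) :
    (f ∣[k] δ) ((N : ℝ) +ᵥ z) = (f ∣[k] δ) z := by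
  have h1 : (f ∣[k] δ) ∣[k] (ModularGroup.T ^ (N : ℤ)) = f ∣[k] δ := by
    rw [← SlashAction.slash_mul]
    have : δ * ModularGroup.T ^ (N : ℤ) = (δ * ModularGroup.T ^ (N : ℤ) * δ⁻¹) * δ := by group
    rw [this, SlashAction.slash_mul, hinv _ (conj_T_pow_mem N δ)]
  have h2 := congrFun h1 z
  rw [ModularForm.SL_slash_apply, UpperHalfPlane.modular_T_zpow_smul] at h2
  have hden : denom ((ModularGroup.T ^ (N : ℤ) : SL(2, ℤ)) : GL (Fin 2) ℝ) z = 1 := by
    rw [ModularGroup.denom_apply, ModularGroup.coe_T_zpow]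
    simp
  rw [hden, one_zpow, mul_one] at h2
  exact_mod_cast h2

/-- **Expansions of modular forms at all cusps.**  Every `SL(2,ℤ)`-slash of a modular form on
`Γ₀(N)` is represented by a power series in `q_N`. -/
theorem IsMF.rep_slash {N : ℕ} [NeZero N] {k : ℤ} {f : ℍ → ℂ} (hf : Fermat.Agent.S20.IsMF N k f)
    (δ : SL(2, ℤ)) : Rep N (UpperHalfPlane.qExpansion (N : ℝ) (f ∣[k] δ)) (f ∣[k] δ) :=
  rep_of_bounded_level N (hf.1.slash k δ) (slash_periodic hf.2.1 δ) (hf.2.2 δ)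

theorem IsMF.hasRatExp_slash {N : ℕ} [NeZero N] {k : ℤ} {f : ℍ → ℂ}
    (hf : Fermat.Agent.S20.IsMF N k f) (δ : SL(2, ℤ)) : HasRatExp N ⊤ (f ∣[k] δ) :=
  ⟨0, _, CoeffIn.top _, (IsMF.rep_slash hf δ).congr fun z => by simp⟩

/-! ### The hypothesis package -/

/-- `f` is a modular function of level `Γ₀(N)`, holomorphic on `ℍ`, with finite-order poles (in
`q_N`) at all cusps. -/
def IsModFun (N : ℕ) (f : ℍ → ℂ) : Prop :=
  MDiff f ∧ (∀ γ : SL(2, ℤ), γ ∈ Gamma0 N → ∀ z, f (γ • z) = f z) ∧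
    ∀ γ : SL(2, ℤ), HasRatExp N ⊤ (fun z => f (γ • z))

/-- Weakly holomorphic modular forms of weight `k` on `Γ₀(N)`: holomorphic on `ℍ`, slash invariant,
finite-order poles (in `q_N`) at all cusps. -/
def IsWMF (N : ℕ) (k : ℤ) (f : ℍ → ℂ) : Prop :=
  MDiff f ∧ (∀ γ ∈ Gamma0 N, f ∣[k] (γ : SL(2, ℤ)) = f) ∧
    ∀ δ : SL(2, ℤ), HasRatExp N ⊤ (f ∣[k] δ)

theorem slash_zero_apply (f : ℍ → ℂ) (γ : SL(2, ℤ)) (z : ℍ) : (f ∣[(0 : ℤ)] γ) z = f (γ • z) := by
  rw [ModularForm.SL_slash_apply]; simp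

theorem isModFun_iff_isWMF_zero {N : ℕ} {f : ℍ → ℂ} : IsModFun N f ↔ IsWMF N 0 f := by
  constructor
  · rintro ⟨h1, h2, h3⟩
    refine ⟨h1, fun γ hγ => funext fun z => ?_, fun δ => (h3 δ).congr fun z => ?_⟩
    · rw [slash_zero_apply]; exact h2 γ hγ z
    · rw [slash_zero_apply]
  · rintro ⟨h1, h2, h3⟩
    refine ⟨h1, fun γ hγ z => ?_, fun δ => (h3 δ).congr fun z => ?_⟩
    · rw [← slash_zero_apply f γ z, h2 γ hγ]
    · rw [slash_zero_apply]

theorem IsMF.isWMF {N : ℕ} [NeZero N] {k : ℤ} {f : ℍ → ℂ} (hf : Fermat.Agent.S20.IsMF N k f) :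
    IsWMF N k f :=
  ⟨hf.1, hf.2.1, fun δ => IsMF.hasRatExp_slash hf δ⟩

namespace IsWMF

variable {N : ℕ} {k k' : ℤ} {f f' : ℍ → ℂ}

theorem add [NeZero N] (hf : IsWMF N k f) (hf' : IsWMF N k f') : IsWMF N k (f + f') := by
  refine ⟨hf.1.add hf'.1, fun γ hγ => ?_, fun δ => ?_⟩
  · rw [SlashAction.add_slash, hf.2.1 γ hγ, hf'.2.1 γ hγ]
  · rw [SlashAction.add_slash]; exact (hf.2.2 δ).add (hf'.2.2 δ)

theorem const_smul [NeZero N] (c : ℂ) (hf : IsWMF N k f) : IsWMF N k (c • f) := by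
  refine ⟨hf.1.const_smul c, fun γ hγ => ?_, fun δ => ?_⟩
  · rw [ModularForm.SL_smul_slash, hf.2.1 γ hγ]
  · rw [ModularForm.SL_smul_slash]
    exact ((HasRatExp.const (Subring.mem_top c)).mul (hf.2.2 δ)).congr fun z => by simp

theorem neg [NeZero N] (hf : IsWMF N k f) : IsWMF N k (-f) := by
  have := hf.const_smul (-1)
  simpa using this

theorem sub [NeZero N] (hf : IsWMF N k f) (hf' : IsWMF N k f') : IsWMF N k (f - f') := by
  rw [sub_eq_add_neg]; exact hf.add hf'.neg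

theorem mul [NeZero N] (hf : IsWMF N k f) (hf' : IsWMF N k' f') : IsWMF N (k + k') (f * f') := by
  refine ⟨hf.1.mul hf'.1, fun γ hγ => ?_, fun δ => ?_⟩
  · rw [ModularForm.mul_slash_SL2, hf.2.1 γ hγ, hf'.2.1 γ hγ]
  · rw [ModularForm.mul_slash_SL2]; exact (hf.2.2 δ).mul (hf'.2.2 δ)

theorem const (N : ℕ) (c : ℂ) : IsWMF N 0 (fun _ => c) := by
  refine ⟨mdifferentiable_const, fun γ _ => ?_, fun δ => ?_⟩
  · exact ModularForm.is_invariant_const _ c
  · have : ((fun _ => c) : ℍ → ℂ) ∣[(0 : ℤ)] δ = fun _ => c := ModularForm.is_invariant_const _ c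
    rw [this]; exact HasRatExp.const (Subring.mem_top c)

theorem inv_slash (k : ℤ) (f : ℍ → ℂ) (γ : SL(2, ℤ)) :
    (fun z => (f z)⁻¹) ∣[-k] γ = fun z => ((f ∣[k] γ) z)⁻¹ := by
  funext z
  rw [ModularForm.SL_slash_apply, ModularForm.SL_slash_apply, mul_inv, ← zpow_neg]

theorem slash_ne_zero (hne : ∀ z, f z ≠ 0) (γ : SL(2, ℤ)) (z : ℍ) : (f ∣[k] γ) z ≠ 0 := by
  rw [ModularForm.SL_slash_apply]
  exact mul_ne_zero (hne _) (zpow_ne_zero _ (UpperHalfPlane.denom_ne_zero _ _))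

theorem inv [NeZero N] (hf : IsWMF N k f) (hne : ∀ z, f z ≠ 0) :
    IsWMF N (-k) (fun z => (f z)⁻¹) := by
  refine ⟨?_, fun γ hγ => ?_, fun δ => ?_⟩
  · have : MDiff (fun z => (1 : ℂ) / f z) := (mdifferentiable_const (c := (1 : ℂ))).div hf.1 hne
    simpa using this
  · rw [inv_slash, hf.2.1 γ hγ]
  · rw [inv_slash]
    exact hasRatExp_inv (hf.1.slash k δ) (slash_ne_zero hne δ) (hf.2.2 δ)

theorem div [NeZero N] (hf : IsWMF N k f) (hf' : IsWMF N k' f') (hne : ∀ z, f' z ≠ 0) :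
    IsWMF N (k - k') (fun z => f z / f' z) := by
  have := hf.mul (hf'.inv hne)
  rw [sub_eq_add_neg]
  exact this

theorem pow [NeZero N] (hf : IsWMF N k f) (n : ℕ) : IsWMF N (n * k) (f ^ n) := by
  induction n with
  | zero =>
    have := const N 1
    simp only [pow_zero, Nat.cast_zero, zero_mul]
    exact this
  | succ n ih =>
    have := ih.mul hf
    rw [pow_succ]
    convert this using 1
    push_cast; ring

end IsWMF

/-- The quotient of two weakly holomorphic forms of the same weight, the denominator nowhere zero on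
`ℍ`, is a modular function with finite-order poles at the cusps. -/
theorem isModFun_div {N : ℕ} [NeZero N] {k : ℤ} {f f' : ℍ → ℂ} (hf : IsWMF N k f)
    (hf' : IsWMF N k f') (hne : ∀ z, f' z ≠ 0) : IsModFun N (fun z => f z / f' z) := by
  rw [isModFun_iff_isWMF_zero]
  have := hf.div hf' hne
  rwa [sub_self] at this

/-- The quotient of two modular forms of the same weight on `Γ₀(N)`, the denominator nowhere zero
on `ℍ`, is a modular function with finite-order poles at the cusps. -/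
theorem isModFun_div_of_isMF {N : ℕ} [NeZero N] {k : ℤ} {f f' : ℍ → ℂ}
    (hf : Fermat.Agent.S20.IsMF N k f) (hf' : Fermat.Agent.S20.IsMF N k f')
    (hne : ∀ z, f' z ≠ 0) : IsModFun N (fun z => f z / f' z) :=
  isModFun_div (IsMF.isWMF hf) (IsMF.isWMF hf') hne

/-! ### Change of level -/

theorem Gamma0_le_of_dvd {N M : ℕ} (hNM : N ∣ M) : Gamma0 M ≤ Gamma0 N := fun γ hγ => by
  rw [Gamma0_mem] at hγ ⊢
  obtain ⟨d, rfl⟩ := hNM
  have h1 : ((γ 1 0 : ℤ) : ZMod (N * d)) = 0 := hγ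
  have h2 := (ZMod.intCast_zmod_eq_zero_iff_dvd (γ 1 0) (N * d)).mp h1
  refine (ZMod.intCast_zmod_eq_zero_iff_dvd (γ 1 0) N).mpr ?_
  exact dvd_trans (by push_cast; exact dvd_mul_right _ _) h2

theorem isMF_of_dvd {N M : ℕ} (hNM : N ∣ M) {k : ℤ} {f : ℍ → ℂ}
    (hf : Fermat.Agent.S20.IsMF N k f) : Fermat.Agent.S20.IsMF M k f :=
  ⟨hf.1, fun γ hγ => hf.2.1 γ (Gamma0_le_of_dvd hNM hγ), hf.2.2⟩

theorem IsWMF.of_dvd {N M : ℕ} [NeZero N] [NeZero M] (hNM : N ∣ M) {k : ℤ} {f : ℍ → ℂ}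
    (hf : IsWMF N k f) : IsWMF M k f :=
  ⟨hf.1, fun γ hγ => hf.2.1 γ (Gamma0_le_of_dvd hNM hγ), fun δ => hasRatExp_of_dvd hNM (hf.2.2 δ)⟩

theorem IsModFun.of_dvd {N M : ℕ} [NeZero N] [NeZero M] (hNM : N ∣ M) {f : ℍ → ℂ}
    (hf : IsModFun N f) : IsModFun M f :=
  ⟨hf.1, fun γ hγ => hf.2.1 γ (Gamma0_le_of_dvd hNM hγ), fun δ => hasRatExp_of_dvd hNM (hf.2.2 δ)⟩

namespace IsModFun

variable {N : ℕ} [NeZero N] {f f' : ℍ → ℂ}

theorem add (hf : IsModFun N f) (hf' : IsModFun N f') : IsModFun N (fun z => f z + f' z) :=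
  ⟨hf.1.add hf'.1, fun γ hγ z => by simp only [hf.2.1 γ hγ, hf'.2.1 γ hγ],
    fun δ => (hf.2.2 δ).add (hf'.2.2 δ)⟩

theorem mul (hf : IsModFun N f) (hf' : IsModFun N f') : IsModFun N (fun z => f z * f' z) :=
  ⟨hf.1.mul hf'.1, fun γ hγ z => by simp only [hf.2.1 γ hγ, hf'.2.1 γ hγ],
    fun δ => (hf.2.2 δ).mul (hf'.2.2 δ)⟩

theorem neg (hf : IsModFun N f) : IsModFun N (fun z => -f z) :=
  ⟨hf.1.neg, fun γ hγ z => by simp only [hf.2.1 γ hγ], fun δ => (hf.2.2 δ).neg⟩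

theorem sub (hf : IsModFun N f) (hf' : IsModFun N f') : IsModFun N (fun z => f z - f' z) :=
  ⟨hf.1.sub hf'.1, fun γ hγ z => by simp only [hf.2.1 γ hγ, hf'.2.1 γ hγ],
    fun δ => (hf.2.2 δ).sub (hf'.2.2 δ)⟩

omit [NeZero N] in
theorem const (c : ℂ) : IsModFun N (fun _ => c) :=
  ⟨mdifferentiable_const, fun _ _ _ => rfl, fun _ => HasRatExp.const (Subring.mem_top c)⟩

theorem const_mul (c : ℂ) (hf : IsModFun N f) : IsModFun N (fun z => c * f z) :=
  (const c).mul hf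

theorem pow (hf : IsModFun N f) (n : ℕ) : IsModFun N (fun z => f z ^ n) :=
  ⟨hf.1.pow n, fun γ hγ z => by simp only [hf.2.1 γ hγ], fun δ => (hf.2.2 δ).pow n⟩

theorem inv (hf : IsModFun N f) (hne : ∀ z, f z ≠ 0) : IsModFun N (fun z => (f z)⁻¹) := by
  rw [isModFun_iff_isWMF_zero] at hf ⊢
  have := hf.inv hne
  rwa [neg_zero] at this

theorem div (hf : IsModFun N f) (hf' : IsModFun N f') (hne : ∀ z, f' z ≠ 0) :
    IsModFun N (fun z => f z / f' z) := by
  have := hf.mul (hf'.inv hne)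
  exact this

end IsModFun

end

end Fermat.Agent.S16.Bridge
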