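/-
S16, package (B2): descent of identities from `LaurentSeries L` to `LaurentSeries K`
for a field extension `K ≤ L` (consumers: `K = ℚ`, `L = ℂ`).

Pure algebra on top of Mathlib and the Prelude's `ModularCurve.coeffMap`.
The only idea: a `K`-linear functional `lam : L → K` acts coefficientwise on Laurent series,
this action commutes with multiplication by series with coefficients in `K`, and functionals
separate the points of `L`.
-/
import Mathlib
import Fermat.Prelude.Def_ModularCurve_LaurentCoeff

set_option autoImplicit false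

noncomputable section

namespace Fermat.Agent.S16.Bridge.Descent

open HahnSeries

variable {K L : Type*} [Field K] [Field L] [Algebra K L]

/-- Coefficientwise extension of scalars `K((q)) → L((q))`. -/
abbrev toL (K L : Type*) [Field K] [Field L] [Algebra K L] : LaurentSeries K →+* LaurentSeries L :=
  ModularCurve.coeffMap (algebraMap K L)

theorem toL_coeff (G : LaurentSeries K) (n : ℤ) :
    (toL K L G).coeff n = algebraMap K L (G.coeff n) := rfl

theorem toL_injective : Function.Injective (toL K L) := by
  intro G H h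
  ext n
  have := congrArg (fun X : LaurentSeries L => X.coeff n) h
  simp only [toL_coeff] at this
  exact (algebraMap K L).injective this

theorem toL_support (G : LaurentSeries K) : (toL K L G).support = G.support := by
  ext n
  simp only [HahnSeries.mem_support, toL_coeff, ne_eq, map_eq_zero]

/-- A `K`-linear functional on `L`, applied coefficientwise. -/
def linHat (lam : L →ₗ[K] K) : LaurentSeries L →+ LaurentSeries K where
  toFun H :=
    { coeff := fun n => lam (H.coeff n)
      isPWO_support' := H.isPWO_support.mono (by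
        intro n hn
        simp only [Function.mem_support, ne_eq] at hn
        simp only [HahnSeries.mem_support, ne_eq]
        intro h0
        exact hn (by rw [h0, map_zero])) }
  map_zero' := by
    ext n
    simp
  map_add' x y := by
    ext n
    simp

@[simp]
theorem linHat_coeff (lam : L →ₗ[K] K) (H : LaurentSeries L) (n : ℤ) :
    (linHat lam H).coeff n = lam (H.coeff n) := rfl

theorem linHat_support_subset (lam : L →ₗ[K] K) (H : LaurentSeries L) :
    (linHat lam H).support ⊆ H.support := by
  intro n hn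
  simp only [HahnSeries.mem_support, linHat_coeff, ne_eq] at hn ⊢
  intro h0
  exact hn (by rw [h0, map_zero])

/-- The key identity: `linHat` commutes with multiplication by a series over `K`. -/
theorem linHat_toL_mul (lam : L →ₗ[K] K) (G : LaurentSeries K) (H : LaurentSeries L) :
    linHat lam (toL K L G * H) = G * linHat lam H := by
  ext n
  rw [linHat_coeff,
    HahnSeries.coeff_mul_left' (x := toL K L G) (y := H) G.isPWO_support (toL_support G).subset,
    HahnSeries.coeff_mul_right' (x := G) (y := linHat lam H) H.isPWO_support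
      (linHat_support_subset lam H), map_sum]
  refine Finset.sum_congr rfl fun ij _ => ?_
  rw [toL_coeff, linHat_coeff, ← Algebra.smul_def, map_smul, smul_eq_mul]

theorem linHat_mul_toL (lam : L →ₗ[K] K) (G : LaurentSeries K) (H : LaurentSeries L) :
    linHat lam (H * toL K L G) = linHat lam H * G := by
  rw [mul_comm, linHat_toL_mul, mul_comm]

theorem linHat_toL (lam : L →ₗ[K] K) (G : LaurentSeries K) :
    linHat lam (toL K L G) = HahnSeries.C (lam 1) * G := by
  ext n
  rw [linHat_coeff, toL_coeff, HahnSeries.C_mul_eq_smul, HahnSeries.coeff_smul, smul_eq_mul,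
    Algebra.algebraMap_eq_smul_one, map_smul, smul_eq_mul, mul_comm]

theorem linHat_C (lam : L →ₗ[K] K) (c : L) :
    linHat lam (HahnSeries.C c) = HahnSeries.C (lam c) := by
  ext n
  rw [linHat_coeff, HahnSeries.C_apply, HahnSeries.C_apply]
  by_cases hn : n = 0
  · subst hn
    simp
  · rw [HahnSeries.coeff_single_of_ne hn, HahnSeries.coeff_single_of_ne hn, map_zero]

/-- `linHat (C c * toL G) = C (lam c) * G`. -/
theorem linHat_C_mul_toL (lam : L →ₗ[K] K) (c : L) (G : LaurentSeries K) :
    linHat lam (HahnSeries.C c * toL K L G) = HahnSeries.C (lam c) * G := by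
  rw [linHat_mul_toL, linHat_C]

theorem linHat_sum {ι : Type*} (lam : L →ₗ[K] K) (s : Finset ι) (f : ι → LaurentSeries L) :
    linHat lam (∑ i ∈ s, f i) = ∑ i ∈ s, linHat lam (f i) :=
  map_sum (linHat lam) f s

/-- Functionals separate points. -/
theorem exists_lam_ne_zero {c : L} (hc : c ≠ 0) : ∃ lam : L →ₗ[K] K, lam c ≠ 0 :=
  Module.Projective.exists_dual_ne_zero K hc

theorem exists_lam_one : ∃ lam : L →ₗ[K] K, lam 1 = 1 :=
  Module.Projective.exists_dual_eq_one K (one_ne_zero)

/-- A nonzero series over `L` has a nonzero image under some `linHat`. -/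
theorem exists_linHat_ne_zero {H : LaurentSeries L} (hH : H ≠ 0) :
    ∃ lam : L →ₗ[K] K, linHat lam H ≠ 0 := by
  obtain ⟨n, hn⟩ : ∃ n, H.coeff n ≠ 0 := by
    by_contra hall
    push Not at hall
    exact hH (HahnSeries.ext (funext hall))
  obtain ⟨lam, hlam⟩ := exists_lam_ne_zero (K := K) hn
  refine ⟨lam, fun h0 => hlam ?_⟩
  have := congrArg (fun X : LaurentSeries K => X.coeff n) h0
  simpa using this


/-! ### Descent of membership in a subfield -/

section Membership

variable (L)

/-- The multiplicative monoid of "monomials" `C c * toL G`, `G ∈ F₀`. -/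
def monoSubmonoid (F₀ : Subfield (LaurentSeries K)) : Submonoid (LaurentSeries L) where
  carrier := {x | ∃ (c : L) (G : LaurentSeries K), G ∈ F₀ ∧ x = HahnSeries.C c * toL K L G}
  one_mem' := ⟨1, 1, F₀.one_mem, by simp⟩
  mul_mem' := by
    rintro x y ⟨c, G, hG, rfl⟩ ⟨d, H, hH, rfl⟩
    refine ⟨c * d, G * H, F₀.mul_mem hG hH, ?_⟩
    rw [map_mul, map_mul]
    ring

variable {L}

theorem linHat_mem_of_mem_closure (F₀ : Subfield (LaurentSeries K))
    (hC : ∀ k : K, HahnSeries.C k ∈ F₀) {r : LaurentSeries L}
    (hr : r ∈ Subring.closure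
      (Set.range (HahnSeries.C : L → LaurentSeries L) ∪ (toL K L '' (F₀ : Set (LaurentSeries K)))))
    (lam : L →ₗ[K] K) : linHat lam r ∈ F₀ := by
  have hle : Subring.closure
      (Set.range (HahnSeries.C : L → LaurentSeries L) ∪ (toL K L '' (F₀ : Set (LaurentSeries K))))
      ≤ Subring.closure (monoSubmonoid L F₀ : Set (LaurentSeries L)) := by
    apply Subring.closure_mono
    rintro x (⟨c, rfl⟩ | ⟨G, hG, rfl⟩)
    · exact ⟨c, 1, F₀.one_mem, by simp⟩
    · exact ⟨1, G, hG, by simp⟩
  have hr' := hle hr
  clear hr hle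
  rw [Subring.mem_closure_iff, Submonoid.closure_eq] at hr'
  induction hr' using AddSubgroup.closure_induction with
  | mem x hx =>
    obtain ⟨c, G, hG, rfl⟩ := hx
    rw [linHat_C_mul_toL]
    exact F₀.mul_mem (hC _) hG
  | zero => rw [map_zero]; exact F₀.zero_mem
  | add x y _ _ hx hy => rw [map_add]; exact F₀.add_mem hx hy
  | neg x _ hx => rw [map_neg]; exact F₀.neg_mem hx

/-- **Descent of membership** (instance-free form): if `toL F` lies in the subfield of `L((q))`
generated by the constants and `toL '' F₀`, then `F ∈ F₀`. -/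
theorem mem_of_toL_mem_closure (F₀ : Subfield (LaurentSeries K))
    (hC : ∀ k : K, HahnSeries.C k ∈ F₀) {F : LaurentSeries K}
    (h : toL K L F ∈ Subfield.closure
      (Set.range (HahnSeries.C : L → LaurentSeries L) ∪ (toL K L '' (F₀ : Set (LaurentSeries K))))) :
    F ∈ F₀ := by
  rw [Subfield.mem_closure_iff] at h
  obtain ⟨y, hy, z, hz, hyz⟩ := h
  by_cases hz0 : z = 0
  · rw [hz0, div_zero] at hyz
    have : F = 0 := toL_injective (by rw [← hyz, map_zero])
    rw [this]
    exact F₀.zero_mem
  obtain ⟨lam, hlam⟩ := exists_linHat_ne_zero (K := K) hz0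
  have hmul : toL K L F * z = y := by
    rw [← hyz, div_mul_cancel₀ _ hz0]
  have h1 : F * linHat lam z = linHat lam y := by
    rw [← linHat_toL_mul, hmul]
  have hF : F = linHat lam y / linHat lam z := by
    rw [eq_div_iff hlam, h1]
  rw [hF]
  exact F₀.div_mem (linHat_mem_of_mem_closure F₀ hC hy lam) (linHat_mem_of_mem_closure F₀ hC hz lam)

theorem algebraMap_eq_C (R : Type*) [Field R] (c : R) :
    algebraMap R (LaurentSeries R) c = HahnSeries.C c := by
  rw [ModularCurve.algebraMap_laurentSeries_eq_single]
  rfl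

/-- **Descent of membership**, `IntermediateField` form. -/
theorem mem_of_toL_mem_adjoin (F₀ : IntermediateField K (LaurentSeries K)) {F : LaurentSeries K}
    (h : toL K L F ∈ IntermediateField.adjoin L (toL K L '' (F₀ : Set (LaurentSeries K)))) :
    F ∈ F₀ := by
  have hC : ∀ k : K, HahnSeries.C k ∈ F₀.toSubfield := fun k => by
    rw [← algebraMap_eq_C]
    exact F₀.algebraMap_mem k
  refine mem_of_toL_mem_closure (L := L) F₀.toSubfield hC ?_
  have h' : toL K L F ∈ Subfield.closure
      (Set.range (algebraMap L (LaurentSeries L)) ∪ (toL K L '' (F₀ : Set (LaurentSeries K)))) := h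
  have hrange : Set.range (algebraMap L (LaurentSeries L)) =
      Set.range (HahnSeries.C : L → LaurentSeries L) := by
    ext x
    simp only [Set.mem_range, algebraMap_eq_C]
  rw [hrange] at h'
  exact h'

/-- **Descent of membership**, Prelude form (`K = ℚ`): a rational Laurent series whose image
lies in the base change of `F₀` already lies in `F₀`. -/
theorem mem_of_coeffEmb_mem_laurentBaseChange (L : Type*) [Field L] [Algebra ℚ L]
    (F₀ : IntermediateField ℚ (LaurentSeries ℚ)) {F : LaurentSeries ℚ}
    (h : ModularCurve.coeffEmb L F ∈ ModularCurve.laurentBaseChange L F₀) : F ∈ F₀ :=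
  mem_of_toL_mem_adjoin (K := ℚ) (L := L) F₀ h

end Membership


/-! ### Descent of polynomial identities -/

section Poly

open Polynomial

/-- Evaluation of a two-variable polynomial at Laurent series: the inner variable goes to `a`,
the outer variable goes to `b`, constants go to constant series. -/
def ev2 (R : Type*) [Field R] (a b : LaurentSeries R) :
    Polynomial (Polynomial R) →+* LaurentSeries R :=
  Polynomial.eval₂RingHom
    (Polynomial.eval₂RingHom (HahnSeries.C : R →+* LaurentSeries R) a) b

theorem ev2_apply (R : Type*) [Field R] (a b : LaurentSeries R) (P : Polynomial (Polynomial R)) :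
    ev2 R a b P = Polynomial.eval₂
      (Polynomial.eval₂RingHom (HahnSeries.C : R →+* LaurentSeries R) a) b P := rfl

/-- one-variable evaluation -/
def ev1 (R : Type*) [Field R] (a : LaurentSeries R) : Polynomial R →+* LaurentSeries R :=
  Polynomial.eval₂RingHom (HahnSeries.C : R →+* LaurentSeries R) a

theorem ev1_apply (R : Type*) [Field R] (a : LaurentSeries R) (P : Polynomial R) :
    ev1 R a P = Polynomial.eval₂ (HahnSeries.C : R →+* LaurentSeries R) a P := rfl

theorem ev2_eq_sum (R : Type*) [Field R] (a b : LaurentSeries R) (P : Polynomial (Polynomial R)) :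
    ev2 R a b P = ∑ i ∈ P.support, ev1 R a (P.coeff i) * b ^ i := by
  rw [ev2_apply, Polynomial.eval₂_eq_sum, Polynomial.sum_def]
  rfl

theorem ev1_eq_sum (R : Type*) [Field R] (a : LaurentSeries R) (P : Polynomial R) :
    ev1 R a P = ∑ i ∈ P.support, HahnSeries.C (P.coeff i) * a ^ i := by
  rw [ev1_apply, Polynomial.eval₂_eq_sum, Polynomial.sum_def]

/-- A linear functional applied to the coefficients of a polynomial. -/
def polyLin (lam : L →ₗ[K] K) (P : Polynomial L) : Polynomial K :=
  ∑ i ∈ P.support, Polynomial.monomial i (lam (P.coeff i))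

theorem polyLin_coeff (lam : L →ₗ[K] K) (P : Polynomial L) (n : ℕ) :
    (polyLin lam P).coeff n = lam (P.coeff n) := by
  rw [polyLin, Polynomial.finsetSum_coeff]
  simp only [Polynomial.coeff_monomial]
  rw [Finset.sum_ite_eq' P.support n]
  split_ifs with h
  · rfl
  · rw [Polynomial.notMem_support_iff.mp h, map_zero]

theorem polyLin_zero (lam : L →ₗ[K] K) : polyLin lam 0 = 0 := by
  ext n
  rw [polyLin_coeff]
  simp

theorem polyLin_one (lam : L →ₗ[K] K) (h1 : lam 1 = 1) : polyLin lam 1 = 1 := by
  ext n
  rw [polyLin_coeff, Polynomial.coeff_one, Polynomial.coeff_one]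
  split_ifs
  · exact h1
  · exact map_zero lam

theorem ev1_polyLin (lam : L →ₗ[K] K) (G x : LaurentSeries K) (P : Polynomial L) :
    linHat lam (toL K L G * ev1 L (toL K L x) P) = G * ev1 K x (polyLin lam P) := by
  rw [ev1_eq_sum, ev1_apply, polyLin, Polynomial.eval₂_finsetSum, Finset.mul_sum, Finset.mul_sum,
    map_sum]
  refine Finset.sum_congr rfl fun i _ => ?_
  rw [Polynomial.eval₂_monomial, ← map_pow,
    show toL K L G * (HahnSeries.C (P.coeff i) * toL K L (x ^ i)) =
      HahnSeries.C (P.coeff i) * toL K L (G * x ^ i) by rw [map_mul]; ring,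
    linHat_C_mul_toL]
  ring

/-- A linear functional applied to the coefficients of a two-variable polynomial. -/
def polyLin₂ (lam : L →ₗ[K] K) (P : Polynomial (Polynomial L)) : Polynomial (Polynomial K) :=
  ∑ i ∈ P.support, Polynomial.monomial i (polyLin lam (P.coeff i))

theorem polyLin₂_coeff (lam : L →ₗ[K] K) (P : Polynomial (Polynomial L)) (n : ℕ) :
    (polyLin₂ lam P).coeff n = polyLin lam (P.coeff n) := by
  rw [polyLin₂, Polynomial.finsetSum_coeff]
  simp only [Polynomial.coeff_monomial]
  rw [Finset.sum_ite_eq' P.support n]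
  split_ifs with h
  · rfl
  · rw [Polynomial.notMem_support_iff.mp h, polyLin_zero]

theorem ev2_polyLin₂ (lam : L →ₗ[K] K) (G x y : LaurentSeries K) (P : Polynomial (Polynomial L)) :
    linHat lam (toL K L G * ev2 L (toL K L x) (toL K L y) P) =
      G * ev2 K x y (polyLin₂ lam P) := by
  rw [ev2_eq_sum, ev2_apply, polyLin₂, Polynomial.eval₂_finsetSum, Finset.mul_sum, Finset.mul_sum,
    map_sum]
  refine Finset.sum_congr rfl fun i _ => ?_
  rw [Polynomial.eval₂_monomial, ← map_pow,
    show toL K L G * (ev1 L (toL K L x) (P.coeff i) * toL K L (y ^ i)) =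
      toL K L (G * y ^ i) * ev1 L (toL K L x) (P.coeff i) by rw [map_mul]; ring,
    ev1_polyLin]
  show G * y ^ i * ev1 K x (polyLin lam (P.coeff i)) = G * (ev1 K x (polyLin lam (P.coeff i)) * y ^ i)
  ring

theorem ev2_polyLin₂' (lam : L →ₗ[K] K) (x y : LaurentSeries K) (P : Polynomial (Polynomial L)) :
    linHat lam (ev2 L (toL K L x) (toL K L y) P) = ev2 K x y (polyLin₂ lam P) := by
  have := ev2_polyLin₂ lam 1 x y P
  rwa [map_one, one_mul, one_mul] at this

/-- **Descent of a rational expression.** If `toL F = A(X,Y)/B(X,Y)` over `L`, then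
`F = A'(x,y)/B'(x,y)` over `K`. -/
theorem descend_ratio {F x y : LaurentSeries K} (A B : Polynomial (Polynomial L))
    (hB : ev2 L (toL K L x) (toL K L y) B ≠ 0)
    (h : toL K L F * ev2 L (toL K L x) (toL K L y) B = ev2 L (toL K L x) (toL K L y) A) :
    ∃ A' B' : Polynomial (Polynomial K),
      ev2 K x y B' ≠ 0 ∧ F * ev2 K x y B' = ev2 K x y A' := by
  obtain ⟨lam, hlam⟩ := exists_linHat_ne_zero (K := K) hB
  refine ⟨polyLin₂ lam A, polyLin₂ lam B, ?_, ?_⟩
  · rwa [← ev2_polyLin₂']
  · rw [← ev2_polyLin₂, h, ev2_polyLin₂']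

theorem ev1_mem_adjoin (x y : LaurentSeries K) (P : Polynomial K) :
    ev1 K x P ∈ IntermediateField.adjoin K ({x, y} : Set (LaurentSeries K)) := by
  rw [ev1_eq_sum]
  refine sum_mem fun i _ => mul_mem ?_ (pow_mem (IntermediateField.subset_adjoin K _ (by simp)) i)
  rw [← algebraMap_eq_C]
  exact IntermediateField.algebraMap_mem _ _

theorem ev2_mem_adjoin (x y : LaurentSeries K) (P : Polynomial (Polynomial K)) :
    ev2 K x y P ∈ IntermediateField.adjoin K ({x, y} : Set (LaurentSeries K)) := by
  rw [ev2_eq_sum]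
  exact sum_mem fun i _ => mul_mem (ev1_mem_adjoin x y _)
    (pow_mem (IntermediateField.subset_adjoin K _ (by simp)) i)

/-- Corollary of `descend_ratio`: `F ∈ K(x, y)`. -/
theorem mem_adjoin_pair_of_ratio {F x y : LaurentSeries K} (A B : Polynomial (Polynomial L))
    (hB : ev2 L (toL K L x) (toL K L y) B ≠ 0)
    (h : toL K L F * ev2 L (toL K L x) (toL K L y) B = ev2 L (toL K L x) (toL K L y) A) :
    F ∈ IntermediateField.adjoin K ({x, y} : Set (LaurentSeries K)) := by
  obtain ⟨A', B', hB', h'⟩ := descend_ratio A B hB h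
  have hF : F = ev2 K x y A' / ev2 K x y B' := by
    rw [eq_div_iff hB', h']
  rw [hF]
  exact div_mem (ev2_mem_adjoin x y A') (ev2_mem_adjoin x y B')

/-- **Descent of a monic relation.** -/
theorem descend_monic {F x : LaurentSeries K} (W : Polynomial (Polynomial L)) (hW : W.Monic)
    (h : ev2 L (toL K L x) (toL K L F) W = 0) :
    ∃ W' : Polynomial (Polynomial K),
      W'.Monic ∧ W'.natDegree = W.natDegree ∧ ev2 K x F W' = 0 := by
  obtain ⟨lam, h1⟩ := exists_lam_one (K := K) (L := L)
  have hlead : (polyLin₂ lam W).coeff W.natDegree = 1 := by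
    rw [polyLin₂_coeff, hW.coeff_natDegree, polyLin_one lam h1]
  have hdeg : (polyLin₂ lam W).natDegree = W.natDegree := by
    apply le_antisymm
    · rw [Polynomial.natDegree_le_iff_coeff_eq_zero]
      intro n hn
      rw [polyLin₂_coeff, Polynomial.coeff_eq_zero_of_natDegree_lt hn, polyLin_zero]
    · apply Polynomial.le_natDegree_of_ne_zero
      rw [hlead]
      exact one_ne_zero
  refine ⟨polyLin₂ lam W, ?_, hdeg, ?_⟩
  · rw [Polynomial.Monic, Polynomial.leadingCoeff, hdeg, hlead]
  · rw [← ev2_polyLin₂', h, map_zero]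

/-- Corollary of `descend_monic`: integrality over `K[x]`. -/
theorem isIntegral_adjoin_of_monic {F x : LaurentSeries K} (W : Polynomial (Polynomial L))
    (hW : W.Monic) (h : ev2 L (toL K L x) (toL K L F) W = 0) :
    IsIntegral (Algebra.adjoin K ({x} : Set (LaurentSeries K))) F := by
  obtain ⟨W', hW', -, h0⟩ := descend_monic W hW h
  let xx : Algebra.adjoin K ({x} : Set (LaurentSeries K)) :=
    ⟨x, Algebra.subset_adjoin (Set.mem_singleton x)⟩
  let φ : Polynomial K →+* Algebra.adjoin K ({x} : Set (LaurentSeries K)) :=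
    (Polynomial.aeval xx).toRingHom
  refine ⟨W'.map φ, hW'.map φ, ?_⟩
  rw [Polynomial.eval₂_map]
  have hcomp : (algebraMap (Algebra.adjoin K ({x} : Set (LaurentSeries K))) (LaurentSeries K)).comp φ
      = Polynomial.eval₂RingHom (HahnSeries.C : K →+* LaurentSeries K) x := by
    apply Polynomial.ringHom_ext
    · intro a
      simp only [φ, RingHom.comp_apply, AlgHom.toRingHom_eq_coe, RingHom.coe_coe,
        Polynomial.aeval_C, Polynomial.coe_eval₂RingHom, Polynomial.eval₂_C]
      rw [← algebraMap_eq_C]
      rfl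
    · simp only [φ, RingHom.comp_apply, AlgHom.toRingHom_eq_coe, RingHom.coe_coe,
        Polynomial.aeval_X, Polynomial.coe_eval₂RingHom, Polynomial.eval₂_X]
      rfl
  rw [hcomp]
  exact h0

/-- `isIntegral_adjoin_of_monic` inside an intermediate field `E` containing `x` and `F`
(the shape used with `E = modularFunctionFieldFull N`). -/
theorem isIntegral_adjoin_of_monic_subtype (E : IntermediateField K (LaurentSeries K))
    {F x : LaurentSeries K} (hF : F ∈ E) (hx : x ∈ E) (W : Polynomial (Polynomial L))
    (hW : W.Monic) (h : ev2 L (toL K L x) (toL K L F) W = 0) :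
    IsIntegral (Algebra.adjoin K ({(⟨x, hx⟩ : E)} : Set E)) (⟨F, hF⟩ : E) := by
  obtain ⟨W', hW', -, h0⟩ := descend_monic W hW h
  let xx : Algebra.adjoin K ({(⟨x, hx⟩ : E)} : Set E) :=
    ⟨⟨x, hx⟩, Algebra.subset_adjoin (Set.mem_singleton _)⟩
  let φ : Polynomial K →+* Algebra.adjoin K ({(⟨x, hx⟩ : E)} : Set E) :=
    (Polynomial.aeval xx).toRingHom
  refine ⟨W'.map φ, hW'.map φ, ?_⟩
  rw [Polynomial.eval₂_map]
  apply (algebraMap E (LaurentSeries K)).injective
  rw [Polynomial.hom_eval₂, map_zero]
  have hcomp : ((algebraMap E (LaurentSeries K)).comp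
      ((algebraMap (Algebra.adjoin K ({(⟨x, hx⟩ : E)} : Set E)) E).comp φ))
      = Polynomial.eval₂RingHom (HahnSeries.C : K →+* LaurentSeries K) x := by
    apply Polynomial.ringHom_ext
    · intro a
      simp only [φ, RingHom.comp_apply, AlgHom.toRingHom_eq_coe, RingHom.coe_coe,
        Polynomial.aeval_C, Polynomial.coe_eval₂RingHom, Polynomial.eval₂_C]
      rw [← algebraMap_eq_C]
      rfl
    · simp only [φ, RingHom.comp_apply, AlgHom.toRingHom_eq_coe, RingHom.coe_coe,
        Polynomial.aeval_X, Polynomial.coe_eval₂RingHom, Polynomial.eval₂_X]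
      rfl
  rw [hcomp]
  exact h0

end Poly

end Fermat.Agent.S16.Bridge.Descent
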