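import Mathlib
import Fermat.Agent.S24.PsiLe
import Fermat.Agent.S28.ConjJFexp
import Fermat.Agent.S28.ExportFinal
import Fermat.Prelude.Def_ModularCurve_IgusaScheme
import Fermat.Agent.S16.Bridge.Descent
import Fermat.Agent.S16.Bridge.Cusps

set_option autoImplicit false

/-!
# S16 (B1 + B3): invariant holomorphic functions with rational `q`-expansion lie in `ℚ(j, j_N)`

Let `f : ℍ → ℂ` be holomorphic, `Γ₀(N)`-invariant, such that every translate `z ↦ f (g • z)`,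
`g ∈ SL(2,ℤ)`, has a finite-order pole at `∞` (a `q_N`-expansion with finitely many negative terms;
this is `Bridge.IsModFun N f`), and such that the expansion of `f` itself at `∞` is the `q`-series
`serQ m P = q^(-m) P(q)` with `P ∈ ℚ[[q]]`.  Then `serQ m P ∈ ℚ(j(q), j(q^N)) ⊆
modularFunctionFieldFull N` (`mem_full_of_isModFun`) and `serQ m P` is integral over `ℚ[j(q)]`
(`isIntegral_of_isModFun`, `isIntegral_full_of_isModFun`).

Proof: the conjugates `z ↦ f (c⁻¹ z)`, `c ∈ SL(2,ℤ)/Γ₀(N)`, are permuted by `SL(2,ℤ)` exactly like the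
conjugates of `j_N`; the symmetric function theorem `SymmRat.exists_lagPoly_lift` puts the Lagrange
numerator in `ℂ[j][X]`; evaluation at `j_N` gives `f · Φ_Y(j, j_N) = L(j, j_N)` in `ℂ((q))`, and
`Bridge.Descent` descends the identity to `ℚ`.
-/

namespace Fermat.Agent.S16.Bridge.Main

open ModularCurve Polynomial
open Fermat.Agent.S20 Fermat.Agent.S24 Fermat.Agent.S24.JConj Fermat.Agent.S28
  Fermat.Agent.S28.TauConj Fermat.Agent.S28.ConjJ Fermat.Agent.S28.SymmRat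
  Fermat.Agent.S28.ConjJFexp
open Fermat.Agent.S24.JPoly (qq CoeffIn HasRatExp Rep)
open scoped MatrixGroups Manifold
open UpperHalfPlane CongruenceSubgroup

noncomputable section

/-! ### the conjugates of a `Γ₀(N)`-invariant function -/

section Conj

variable (f : ℍ → ℂ) (N : ℕ)

/-- the conjugate `z ↦ f (g⁻¹ z)` -/
def conjGen (g : SL(2, ℤ)) : ℍ → ℂ := fun z => f (g⁻¹ • z)

/-- the conjugate attached to a coset `q = g Γ₀(N)` -/
def conjGenQ (q : Q N) : ℍ → ℂ := conjGen f q.out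

variable {f N}

theorem conjGen_mul_of_mem (hinv : ∀ γ ∈ Gamma0 N, ∀ z : ℍ, f (γ • z) = f z)
    (g γ : SL(2, ℤ)) (hγ : γ ∈ Gamma0 N) : conjGen f (g * γ) = conjGen f g := by
  funext z
  unfold conjGen
  rw [mul_inv_rev, mul_smul]
  exact hinv γ⁻¹ (inv_mem hγ) _

theorem conjGenQ_mk (hinv : ∀ γ ∈ Gamma0 N, ∀ z : ℍ, f (γ • z) = f z) (g : SL(2, ℤ)) :
    conjGenQ f N (QuotientGroup.mk g) = conjGen f g := by
  unfold conjGenQ
  obtain ⟨h, hh⟩ := QuotientGroup.mk_out_eq_mul (Gamma0 N) g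
  rw [hh]
  exact conjGen_mul_of_mem hinv g h h.2

theorem conjGenQ_smul (hinv : ∀ γ ∈ Gamma0 N, ∀ z : ℍ, f (γ • z) = f z)
    (q : Q N) (δ : SL(2, ℤ)) (z : ℍ) :
    conjGenQ f N q (δ • z) = conjGenQ f N (δ⁻¹ • q) z := by
  induction q using QuotientGroup.induction_on with
  | H g =>
    have : δ⁻¹ • (QuotientGroup.mk g : Q N) = QuotientGroup.mk (δ⁻¹ * g) := rfl
    rw [this, conjGenQ_mk hinv, conjGenQ_mk hinv]
    unfold conjGen
    rw [mul_inv_rev, inv_inv, mul_smul]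

theorem conjGenQ_one (hinv : ∀ γ ∈ Gamma0 N, ∀ z : ℍ, f (γ • z) = f z) :
    conjGenQ f N (QuotientGroup.mk 1) = f := by
  rw [conjGenQ_mk hinv]
  funext z
  simp [conjGen]

theorem mdiff_conjGenQ (hf : MDiff f) (q : Q N) : MDiff (conjGenQ f N q) :=
  PsiLe.mdiff_comp_SL _ hf

end Conj

/-! ### generalities on split polynomials -/

section Split

variable {R : Type*} [CommRing R] {I : Type*} [Fintype I] [DecidableEq I]

/-- evaluation of the Lagrange numerator at a root -/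
theorem eval_lagrange_gen (x y : I → R) (c : I) :
    (∑ s : I, C (y s) * ∏ s' ∈ Finset.univ.erase s, (X - C (x s'))).eval (x c) =
      y c * ∏ s' ∈ Finset.univ.erase c, (x c - x s') := by
  rw [eval_finsetSum, Finset.sum_eq_single c]
  · rw [eval_mul, eval_C, eval_prod]
    congr 1
    exact Finset.prod_congr rfl fun s' _ => by rw [eval_sub, eval_X, eval_C]
  · intro s _ hsc
    rw [eval_mul, eval_prod]
    have hc : c ∈ Finset.univ.erase s := Finset.mem_erase.mpr ⟨Ne.symm hsc, Finset.mem_univ c⟩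
    rw [Finset.prod_eq_zero hc (by rw [eval_sub, eval_X, eval_C, sub_self]), mul_zero]
  · intro h
    exact absurd (Finset.mem_univ c) h

/-- the derivative of a split polynomial at a root -/
theorem eval_derivative_prod_gen (x : I → R) (c : I) :
    (derivative (∏ s : I, (X - C (x s)))).eval (x c) =
      ∏ s' ∈ Finset.univ.erase c, (x c - x s') := by
  rw [derivative_prod_finset]
  have h := eval_lagrange_gen x (fun _ => 1) c
  simp only [map_one, one_mul] at h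
  simp only [derivative_sub, derivative_X, derivative_C, sub_zero, mul_one]
  exact h

omit [DecidableEq I] in
theorem eval_prod_root (x : I → R) (c : I) : (∏ s : I, (X - C (x s))).eval (x c) = 0 := by
  rw [eval_prod]
  exact Finset.prod_eq_zero (Finset.mem_univ c) (by rw [eval_sub, eval_X, eval_C, sub_self])

end Split

/-! ### the analytic core: the Lagrange identity in `ℂ((t))` -/

section Core

variable {f : ℍ → ℂ} {N : ℕ} [NeZero N]

/-- the top subring of `ℂ` contains the roots of unity -/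
theorem hrootsTop (N : ℕ) : ∀ ζ : ℂ, ζ ^ N = 1 → ζ ∈ (⊤ : Subring ℂ) := fun _ _ => Subring.mem_top _

/-- the conjugates of `f` as elements of `NiceFun N ⊤` -/
def UN (hmd : MDiff f) (hexp : ∀ g : SL(2, ℤ), HasRatExp N ⊤ (fun z => f (g • z))) (c : Q N) :
    NiceFun N (⊤ : Subring ℂ) :=
  ⟨conjGenQ f N c, mem_niceFun.mpr ⟨hexp c.out⁻¹, mdiff_conjGenQ hmd c⟩⟩

@[simp] theorem UN_val (hmd : MDiff f) (hexp : ∀ g : SL(2, ℤ), HasRatExp N ⊤ (fun z => f (g • z)))
    (c : Q N) : ((UN hmd hexp c : NiceFun N (⊤ : Subring ℂ)) : ℍ → ℂ) = conjGenQ f N c := rfl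

theorem UN_hperm (hmd : MDiff f) (hinv : ∀ γ ∈ Gamma0 N, ∀ z : ℍ, f (γ • z) = f z)
    (hexp : ∀ g : SL(2, ℤ), HasRatExp N ⊤ (fun z => f (g • z))) :
    ∀ γ : SL(2, ℤ), ∃ σ : Equiv.Perm (Q N), ∀ (c : Q N) (z : ℍ),
      ((UN hmd hexp c : NiceFun N (⊤ : Subring ℂ)) : ℍ → ℂ) (γ • z) =
        ((UN hmd hexp (σ c) : NiceFun N (⊤ : Subring ℂ)) : ℍ → ℂ) z :=
  fun γ => ⟨permOf N γ, fun c z => conjGenQ_smul hinv c γ z⟩

theorem joint_hperm (hmd : MDiff f) (hinv : ∀ γ ∈ Gamma0 N, ∀ z : ℍ, f (γ • z) = f z)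
    (hexp : ∀ g : SL(2, ℤ), HasRatExp N ⊤ (fun z => f (g • z))) :
    ∀ γ : SL(2, ℤ), ∃ σ : Equiv.Perm (Q N), ∀ (c : Q N) (z : ℍ),
      ((FN N ⊤ (hrootsTop N) c : NiceFun N (⊤ : Subring ℂ)) : ℍ → ℂ) (γ • z) =
          ((FN N ⊤ (hrootsTop N) (σ c) : NiceFun N (⊤ : Subring ℂ)) : ℍ → ℂ) z ∧
        ((UN hmd hexp c : NiceFun N (⊤ : Subring ℂ)) : ℍ → ℂ) (γ • z) =
          ((UN hmd hexp (σ c) : NiceFun N (⊤ : Subring ℂ)) : ℍ → ℂ) z :=
  fun γ => ⟨permOf N γ, fun c z =>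
    ⟨FN_smul_perm N ⊤ (hrootsTop N) γ c z, conjGenQ_smul hinv c γ z⟩⟩

end Core

/-! ### the formal conjugates of `j_N` over `⊤` -/

section Formal

variable (N : ℕ) [NeZero N]

/-- the formal conjugates of `j_N` -/
def xT (c : Q N) : LaurentSeries ↥(⊤ : Subring ℂ) :=
  fexpN N (⊤ : Subring ℂ) (FN N ⊤ (hrootsTop N) c)

theorem xT_one : xT N (QuotientGroup.mk 1 : Q N) = Defs.jNt ↥(⊤ : Subring ℂ) N :=
  ConjJFexp.hx0 N ⊤ (hrootsTop N)

theorem lcA_ne_zero (c : Q N) : lcA N ⊤ (hrootsTop N) c ≠ 0 := by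
  intro h
  have := ConjJFexp.hlc N ⊤ (hrootsTop N) c
  rw [h, zero_pow (NeZero.ne N)] at this
  exact zero_ne_one this

theorem xT_injective : Function.Injective (xT N) := by
  have key : ∀ s s' : Q N, xT N s = xT N s' → ordQ N s ≤ ordQ N s' := by
    intro s s' h
    by_contra hlt
    push Not at hlt
    have h1 : (xT N s').coeff (-(ordQ N s : ℤ)) = 0 :=
      ConjJFexp.hx_low N ⊤ (hrootsTop N) s' _ (by omega)
    rw [← h] at h1
    have h2 := ConjJFexp.hx_lc N ⊤ (hrootsTop N) s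
    rw [show fexpN N (⊤ : Subring ℂ) (FN N ⊤ (hrootsTop N) s) = xT N s from rfl, h1] at h2
    exact lcA_ne_zero N s h2.symm
  intro s s' h
  have hm : ordQ N s = ordQ N s' := le_antisymm (key s s' h) (key s' s h.symm)
  apply ConjJFexp.hinj N ⊤ (hrootsTop N) s s' hm
  rw [← ConjJFexp.hx_lc N ⊤ (hrootsTop N) s, ← ConjJFexp.hx_lc N ⊤ (hrootsTop N) s']
  show (xT N s).coeff _ = (xT N s').coeff _
  rw [h, hm]

end Formal

/-! ### the Lagrange identity, in the variable `t = q_N` -/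

section Lagrange

variable {f : ℍ → ℂ} {N : ℕ} [NeZero N]

theorem exists_lagrange_t (hmd : MDiff f) (hinv : ∀ γ ∈ Gamma0 N, ∀ z : ℍ, f (γ • z) = f z)
    (hexp : ∀ g : SL(2, ℤ), HasRatExp N ⊤ (fun z => f (g • z))) :
    ∃ Φ L : Polynomial (Polynomial ↥(⊤ : Subring ℂ)), Φ.Monic ∧
      Φ.natDegree = Fintype.card (Q N) ∧
      Φ.eval₂ (Defs.evalJt ↥(⊤ : Subring ℂ) N) (Defs.jNt ↥(⊤ : Subring ℂ) N) = 0 ∧
      (derivative Φ).eval₂ (Defs.evalJt ↥(⊤ : Subring ℂ) N) (Defs.jNt ↥(⊤ : Subring ℂ) N) ≠ 0 ∧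
      fexpN N ⊤ (UN hmd hexp (QuotientGroup.mk 1)) *
          (derivative Φ).eval₂ (Defs.evalJt ↥(⊤ : Subring ℂ) N) (Defs.jNt ↥(⊤ : Subring ℂ) N) =
        L.eval₂ (Defs.evalJt ↥(⊤ : Subring ℂ) N) (Defs.jNt ↥(⊤ : Subring ℂ) N) := by
  obtain ⟨Φ, hΦm, hΦd, -, hΦ⟩ :=
    exists_prodPoly_lift (FN N ⊤ (hrootsTop N)) (FN_hperm N ⊤ (hrootsTop N))
  obtain ⟨L, -, hL⟩ :=
    exists_lagPoly_lift (FN N ⊤ (hrootsTop N)) (UN hmd hexp) (joint_hperm hmd hinv hexp)
  rw [evJA_eq_evalJt] at hΦ hL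
  have hΦ' : Φ.map (Defs.evalJt ↥(⊤ : Subring ℂ) N) = ∏ c : Q N, (X - C (xT N c)) := hΦ
  have hL' : L.map (Defs.evalJt ↥(⊤ : Subring ℂ) N) =
      ∑ c : Q N, C (fexpN N ⊤ (UN hmd hexp c)) *
        ∏ c' ∈ Finset.univ.erase c, (X - C (xT N c')) := hL
  have hder : (derivative Φ).eval₂ (Defs.evalJt ↥(⊤ : Subring ℂ) N)
      (Defs.jNt ↥(⊤ : Subring ℂ) N) =
      ∏ s' ∈ Finset.univ.erase (QuotientGroup.mk 1 : Q N),
        (xT N (QuotientGroup.mk 1) - xT N s') := by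
    rw [← eval_map, ← derivative_map, hΦ', ← xT_one, eval_derivative_prod_gen]
  refine ⟨Φ, L, hΦm, hΦd, ?_, ?_, ?_⟩
  · rw [← eval_map, hΦ', ← xT_one, eval_prod_root]
  · rw [hder, Finset.prod_ne_zero_iff]
    intro c hc
    rw [sub_ne_zero]
    intro h
    exact (Finset.mem_erase.mp hc).1 (xT_injective N h).symm
  · rw [hder, ← eval_map, hL', ← xT_one,
      eval_lagrange_gen (xT N) (fun c => fexpN N ⊤ (UN hmd hexp c))]

theorem exists_monic_t (hmd : MDiff f) (hinv : ∀ γ ∈ Gamma0 N, ∀ z : ℍ, f (γ • z) = f z)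
    (hexp : ∀ g : SL(2, ℤ), HasRatExp N ⊤ (fun z => f (g • z))) :
    ∃ W : Polynomial (Polynomial ↥(⊤ : Subring ℂ)), W.Monic ∧
      W.natDegree = Fintype.card (Q N) ∧
      W.eval₂ (Defs.evalJt ↥(⊤ : Subring ℂ) N)
        (fexpN N ⊤ (UN hmd hexp (QuotientGroup.mk 1))) = 0 := by
  obtain ⟨W, hWm, hWd, -, hW⟩ := exists_prodPoly_lift (UN hmd hexp) (UN_hperm hmd hinv hexp)
  rw [evJA_eq_evalJt] at hW
  refine ⟨W, hWm, hWd, ?_⟩
  rw [← eval_map, hW]
  exact eval_prod_root (fun c => fexpN N ⊤ (UN hmd hexp c)) (QuotientGroup.mk 1)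

end Lagrange

/-! ### from the variable `t = q_N` to the variable `q` -/

section ToQ

/-- passage between the `t`-variable and the `q`-variable, with an arbitrary second variable -/
theorem qExpand_eval₂_gen {R S : Type} [CommRing R] [CommRing S] (N : ℕ) [NeZero N] (φ : R →+* S)
    (G : Polynomial (Polynomial R)) (θ : LaurentSeries S) (θt : LaurentSeries R)
    (h : qExpand S N θ = coeffMap φ θt) :
    qExpand S N ((G.map (Polynomial.mapRingHom φ)).eval₂ (Export.ev1 S) θ) =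
      coeffMap φ (G.eval₂ (Defs.evalJt R N) θt) := by
  have h' : ((qExpand S N).comp (Export.ev1 S)).comp (Polynomial.mapRingHom φ) =
      (coeffMap φ).comp (Defs.evalJt R N) := by
    refine Polynomial.ringHom_ext (fun r => ?_) ?_
    · simp [Export.evalJt_C, HahnSeries.C_apply]
    · simp [Export.evalJt_X, coeffMap_qExpand, coeffMap_jqModC]
  rw [Polynomial.hom_eval₂, Polynomial.eval₂_map, h', h, Polynomial.hom_eval₂]

variable {f : ℍ → ℂ} {N : ℕ} [NeZero N]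

/-- the expansion of `f` at infinity -/
theorem coeffMap_fexpN_UN_one (hmd : MDiff f)
    (hinv : ∀ γ ∈ Gamma0 N, ∀ z : ℍ, f (γ • z) = f z)
    (hexp : ∀ g : SL(2, ℤ), HasRatExp N ⊤ (fun z => f (g • z)))
    (m : ℕ) (p : PowerSeries ℂ) (hp : Rep 1 p (fun z => f z * qq 1 z ^ m)) :
    coeffMap (⊤ : Subring ℂ).subtype (fexpN N ⊤ (UN hmd hexp (QuotientGroup.mk 1))) =
      qExpand ℂ N (ser m p) := by
  show coeffMap _ (fexpA N ⊤ (toRat N ⊤ _)) = _
  rw [coeffMap_fexpA]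
  refine fexp_of_level_one _ (hp.congr fun z => ?_)
  rw [coe_toRat, UN_val, conjGenQ_one hinv]

theorem coeffMap_top_injective :
    Function.Injective (coeffMap (⊤ : Subring ℂ).subtype) :=
  SymmRat.coeffMap_subtype_injective

/-- **The Lagrange identity in `ℂ((q))`.** -/
theorem exists_lagrange_q (hmd : MDiff f) (hinv : ∀ γ ∈ Gamma0 N, ∀ z : ℍ, f (γ • z) = f z)
    (hexp : ∀ g : SL(2, ℤ), HasRatExp N ⊤ (fun z => f (g • z)))
    (m : ℕ) (p : PowerSeries ℂ) (hp : Rep 1 p (fun z => f z * qq 1 z ^ m)) :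
    ∃ Φ L : Polynomial (Polynomial ℂ), Φ.Monic ∧ Φ.natDegree = Fintype.card (Q N) ∧
      Export.ev2 ℂ N Φ = 0 ∧ Export.ev2 ℂ N (derivative Φ) ≠ 0 ∧
      ser m p * Export.ev2 ℂ N (derivative Φ) = Export.ev2 ℂ N L := by
  obtain ⟨Φ₀, L₀, hm, hd, h0, hne, hid⟩ := exists_lagrange_t hmd hinv hexp
  set s : ↥(⊤ : Subring ℂ) →+* ℂ := (⊤ : Subring ℂ).subtype with hs
  have hder : derivative (Φ₀.map (Polynomial.mapRingHom s)) =
      (derivative Φ₀).map (Polynomial.mapRingHom s) := derivative_map _ _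
  refine ⟨Φ₀.map (Polynomial.mapRingHom s), L₀.map (Polynomial.mapRingHom s), hm.map _,
    ?_, ?_, ?_, ?_⟩
  · rw [(hm.natDegree_map _), hd]
  · apply qExpand_injective (R := ℂ) N
    rw [Export.qExpand_ev2, h0, map_zero, map_zero]
  · intro h
    apply hne
    apply coeffMap_top_injective
    rw [← hs, ← Export.qExpand_ev2, ← hder, h, map_zero, map_zero]
  · apply qExpand_injective (R := ℂ) N
    rw [map_mul, hder, Export.qExpand_ev2, Export.qExpand_ev2, ← hid, map_mul,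
      coeffMap_fexpN_UN_one hmd hinv hexp m p hp]

/-- **The integrality equation in `ℂ((q))`.** -/
theorem exists_monic_q (hmd : MDiff f) (hinv : ∀ γ ∈ Gamma0 N, ∀ z : ℍ, f (γ • z) = f z)
    (hexp : ∀ g : SL(2, ℤ), HasRatExp N ⊤ (fun z => f (g • z)))
    (m : ℕ) (p : PowerSeries ℂ) (hp : Rep 1 p (fun z => f z * qq 1 z ^ m)) :
    ∃ W : Polynomial (Polynomial ℂ), W.Monic ∧ W.natDegree = Fintype.card (Q N) ∧
      W.eval₂ (Export.ev1 ℂ) (ser m p) = 0 := by
  obtain ⟨W₀, hm, hd, h0⟩ := exists_monic_t hmd hinv hexp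
  set s : ↥(⊤ : Subring ℂ) →+* ℂ := (⊤ : Subring ℂ).subtype with hs
  refine ⟨W₀.map (Polynomial.mapRingHom s), hm.map _, ?_, ?_⟩
  · rw [(hm.natDegree_map _), hd]
  · apply qExpand_injective (R := ℂ) N
    rw [qExpand_eval₂_gen N s W₀ (ser m p) _
      (coeffMap_fexpN_UN_one hmd hinv hexp m p hp).symm, h0, map_zero, map_zero]

end ToQ

/-! ### descent to `ℚ` and the final statements -/

section Final

open Fermat.Agent.S16.Bridge

variable {f : ℍ → ℂ} {N : ℕ} [NeZero N]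

/-- the Laurent series `q ^ (-m) * P(q)` over `ℚ` -/
def serQ (m : ℕ) (P : PowerSeries ℚ) : LaurentSeries ℚ :=
  HahnSeries.single (-(m : ℤ)) (1 : ℚ) * HahnSeries.ofPowerSeries ℤ ℚ P

theorem toL_serQ (m : ℕ) (P : PowerSeries ℚ) :
    Descent.toL ℚ ℂ (serQ m P) = ser m (P.map (algebraMap ℚ ℂ)) := by
  rw [serQ, ser, map_mul, coeffMap_single, map_one, coeffMap_ofPowerSeries]

theorem export_ev1_eq : Export.ev1 ℂ = Descent.ev1 ℂ (Descent.toL ℚ ℂ jq) := by
  rw [← jqModC_rat, coeffMap_jqModC]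
  rfl

theorem export_ev2_eq (N : ℕ) [NeZero N] :
    Export.ev2 ℂ N = Descent.ev2 ℂ (Descent.toL ℚ ℂ jq) (Descent.toL ℚ ℂ (qExpand ℚ N jq)) := by
  have h : Descent.toL ℚ ℂ (qExpand ℚ N jq) = jqNModC ℂ N := by
    rw [← jqModC_rat]
    exact coeffMap_jqNModC (algebraMap ℚ ℂ) N
  rw [h, ← jqModC_rat, coeffMap_jqModC]
  rfl

/-- **(B), membership.** A holomorphic `Γ₀(N)`-invariant function with finite-order poles at all
cusps and rational `q`-expansion `q^(-m) P(q)` at `∞`: the series lies in `ℚ(j(q), j(q^N))`. -/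
theorem serQ_mem_modularFunctionField (hmd : MDiff f)
    (hinv : ∀ γ ∈ Gamma0 N, ∀ z : ℍ, f (γ • z) = f z)
    (hexp : ∀ g : SL(2, ℤ), HasRatExp N ⊤ (fun z => f (g • z)))
    (m : ℕ) (P : PowerSeries ℚ)
    (hP : Rep 1 (P.map (algebraMap ℚ ℂ)) (fun z => f z * qq 1 z ^ m)) :
    serQ m P ∈ modularFunctionField N := by
  obtain ⟨Φ, L, -, -, -, hne, hid⟩ := exists_lagrange_q hmd hinv hexp m _ hP
  rw [export_ev2_eq N] at hne hid
  rw [← toL_serQ] at hid
  exact Descent.mem_adjoin_pair_of_ratio L (derivative Φ) hne hid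

theorem serQ_mem_full (hmd : MDiff f)
    (hinv : ∀ γ ∈ Gamma0 N, ∀ z : ℍ, f (γ • z) = f z)
    (hexp : ∀ g : SL(2, ℤ), HasRatExp N ⊤ (fun z => f (g • z)))
    (m : ℕ) (P : PowerSeries ℚ)
    (hP : Rep 1 (P.map (algebraMap ℚ ℂ)) (fun z => f z * qq 1 z ^ m)) :
    serQ m P ∈ modularFunctionFieldFull N :=
  modularFunctionField_le_full N (serQ_mem_modularFunctionField hmd hinv hexp m P hP)

/-- the monic equation over `ℂ[j]` in `Descent` vocabulary -/
theorem exists_monic_descent (hmd : MDiff f)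
    (hinv : ∀ γ ∈ Gamma0 N, ∀ z : ℍ, f (γ • z) = f z)
    (hexp : ∀ g : SL(2, ℤ), HasRatExp N ⊤ (fun z => f (g • z)))
    (m : ℕ) (P : PowerSeries ℚ)
    (hP : Rep 1 (P.map (algebraMap ℚ ℂ)) (fun z => f z * qq 1 z ^ m)) :
    ∃ W : Polynomial (Polynomial ℂ), W.Monic ∧ W.natDegree = Fintype.card (Q N) ∧
      Descent.ev2 ℂ (Descent.toL ℚ ℂ jq) (Descent.toL ℚ ℂ (serQ m P)) W = 0 := by
  obtain ⟨W, hWm, hWd, hW⟩ := exists_monic_q hmd hinv hexp m _ hP
  refine ⟨W, hWm, hWd, ?_⟩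
  rw [toL_serQ, Descent.ev2_apply, ← hW, export_ev1_eq]
  rfl

/-- **(B), integrality.** The series is integral over `ℚ[j(q)]`. -/
theorem serQ_isIntegral (hmd : MDiff f)
    (hinv : ∀ γ ∈ Gamma0 N, ∀ z : ℍ, f (γ • z) = f z)
    (hexp : ∀ g : SL(2, ℤ), HasRatExp N ⊤ (fun z => f (g • z)))
    (m : ℕ) (P : PowerSeries ℚ)
    (hP : Rep 1 (P.map (algebraMap ℚ ℂ)) (fun z => f z * qq 1 z ^ m)) :
    IsIntegral (Algebra.adjoin ℚ ({jq} : Set (LaurentSeries ℚ))) (serQ m P) := by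
  obtain ⟨W, hWm, -, hW⟩ := exists_monic_descent hmd hinv hexp m P hP
  exact Descent.isIntegral_adjoin_of_monic W hWm hW

/-- transport of integrality along the (unique) `ℚ`-algebra structure -/
theorem isIntegral_adjoin_congr_inst {E : Type*} [Field E] (i1 i2 : Algebra ℚ E) (s : Set E)
    (x : E) (h : letI := i1; IsIntegral (Algebra.adjoin ℚ s) x) :
    letI := i2; IsIntegral (Algebra.adjoin ℚ s) x := by
  obtain rfl : i1 = i2 := Subsingleton.elim _ _
  exact h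

/-- **(B), integrality inside the function field**, in the shape of the chart ring
(`jFull N = ⟨jq, _⟩`). -/
theorem serQ_isIntegral_full (hmd : MDiff f)
    (hinv : ∀ γ ∈ Gamma0 N, ∀ z : ℍ, f (γ • z) = f z)
    (hexp : ∀ g : SL(2, ℤ), HasRatExp N ⊤ (fun z => f (g • z)))
    (m : ℕ) (P : PowerSeries ℚ)
    (hP : Rep 1 (P.map (algebraMap ℚ ℂ)) (fun z => f z * qq 1 z ^ m)) :
    IsIntegral (Algebra.adjoin ℚ ({IgusaScheme.jFull N} : Set ↥(modularFunctionFieldFull N)))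
      (⟨serQ m P, serQ_mem_full hmd hinv hexp m P hP⟩ : ↥(modularFunctionFieldFull N)) := by
  obtain ⟨W, hWm, -, hW⟩ := exists_monic_descent hmd hinv hexp m P hP
  exact isIntegral_adjoin_congr_inst (SubalgebraClass.toAlgebra (modularFunctionFieldFull N))
    DivisionRing.toRatAlgebra _ _
    (Descent.isIntegral_adjoin_of_monic_subtype (modularFunctionFieldFull N)
      (serQ_mem_full hmd hinv hexp m P hP) (modularFunctionField_le_full N (jq_mem N)) W hWm hW)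

/-! ### the bundled statements -/

/-- **(B), membership**, bundled hypothesis. -/
theorem mem_modularFunctionField_of_isModFun (hf : IsModFun N f) (m : ℕ) (P : PowerSeries ℚ)
    (hP : Rep 1 (P.map (algebraMap ℚ ℂ)) (fun z => f z * qq 1 z ^ m)) :
    serQ m P ∈ modularFunctionField N :=
  serQ_mem_modularFunctionField hf.1 hf.2.1 hf.2.2 m P hP

/-- **(B), membership**, bundled hypothesis. -/
theorem mem_full_of_isModFun (hf : IsModFun N f) (m : ℕ) (P : PowerSeries ℚ)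
    (hP : Rep 1 (P.map (algebraMap ℚ ℂ)) (fun z => f z * qq 1 z ^ m)) :
    serQ m P ∈ modularFunctionFieldFull N :=
  serQ_mem_full hf.1 hf.2.1 hf.2.2 m P hP

/-- **(B), integrality**, bundled hypothesis. -/
theorem isIntegral_of_isModFun (hf : IsModFun N f) (m : ℕ) (P : PowerSeries ℚ)
    (hP : Rep 1 (P.map (algebraMap ℚ ℂ)) (fun z => f z * qq 1 z ^ m)) :
    IsIntegral (Algebra.adjoin ℚ ({jq} : Set (LaurentSeries ℚ))) (serQ m P) :=
  serQ_isIntegral hf.1 hf.2.1 hf.2.2 m P hP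

/-- **(B), integrality inside the function field**, bundled hypothesis. -/
theorem isIntegral_full_of_isModFun (hf : IsModFun N f) (m : ℕ) (P : PowerSeries ℚ)
    (hP : Rep 1 (P.map (algebraMap ℚ ℂ)) (fun z => f z * qq 1 z ^ m)) :
    IsIntegral (Algebra.adjoin ℚ ({IgusaScheme.jFull N} : Set ↥(modularFunctionFieldFull N)))
      (⟨serQ m P, mem_full_of_isModFun hf m P hP⟩ : ↥(modularFunctionFieldFull N)) :=
  serQ_isIntegral_full hf.1 hf.2.1 hf.2.2 m P hP

end Final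

end

end Fermat.Agent.S16.Bridge.Main
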