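import Mathlib
import Fermat.Agent.S16.Bridge.Main
import Fermat.Agent.S16.ChartQExp

set_option autoImplicit false

/-!
# S16 (B3b): from a modular function with `ℓ`-integral `q`-expansion to the chart ring

One-call consumer theorem combining `Bridge.Main` (a `Γ₀(N)`-modular function, holomorphic on `ℍ`,
with rational `q`-expansion lies in the function field and is integral over `ℚ[j]`) with
`ChartQExp` (an element of the function field, integral over `ℚ[j]`, with `ℓ`-integral
`q`-expansion lies in the chart ring `chartAlgFin N ℓ`, and `ρB` is the reduction of the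
`q`-expansion): if `ℓ ∤ N`, `f` is `IsModFun N` and `f = q^(-m) X(q)` with `X ∈ ℤ_(ℓ)[[q]]`, there is
`b ∈ chartAlgFin N ℓ` with `q`-expansion `q^(-m) X(q)` and `ρB b = q^(-m) X̄(q)`.
-/

namespace Fermat.Agent.S16.Bridge.Chart

open ModularCurve ModularCurve.IgusaScheme UpperHalfPlane
open Fermat.Agent.S16.Bridge Fermat.Agent.S16.Bridge.Main Fermat.Agent.S16.ChartQExp
open Fermat.Agent.S28 Fermat.Agent.S28.SeriesRed Fermat.Agent.S28.ZlBasics
open Fermat.Agent.S24.JPoly (qq Rep)

noncomputable section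

variable (N : ℕ) [NeZero N] (ℓ : ℕ) [Fact ℓ.Prime] (h : ¬ ℓ ∣ N)

/-- the Laurent series `q ^ (-m) * X(q)` over any ring -/
def serR {R : Type*} [CommRing R] (m : ℕ) (X : PowerSeries R) : LaurentSeries R :=
  HahnSeries.single (-(m : ℤ)) (1 : R) * HahnSeries.ofPowerSeries ℤ R X

theorem serR_rat (m : ℕ) (P : PowerSeries ℚ) : serR m P = serQ m P := rfl

theorem coeffMap_serR {R S : Type*} [CommRing R] [CommRing S] (φ : R →+* S) (m : ℕ)
    (X : PowerSeries R) : coeffMap φ (serR m X) = serR m (X.map φ) := by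
  rw [serR, serR, map_mul, coeffMap_single, map_one, coeffMap_ofPowerSeries]

omit [Fact ℓ.Prime] in
theorem serQ_mem_intSeries (m : ℕ) (X : PowerSeries (Zl ℓ)) :
    serQ m (X.map (GaloisRep.ratLocalizedAt ℓ).subtype) ∈ intSeries ℓ :=
  ⟨serR m X, coeffMap_serR _ m X⟩

variable {N} in
/-- **From a modular function with `ℓ`-integral `q`-expansion to the chart ring.** -/
theorem exists_chart_of_isModFun {f : ℍ → ℂ} (hf : IsModFun N f) (m : ℕ)
    (X : PowerSeries (Zl ℓ))
    (hX : Rep 1 (X.map ((algebraMap ℚ ℂ).comp (GaloisRep.ratLocalizedAt ℓ).subtype))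
      (fun z => f z * qq 1 z ^ m)) :
    ∃ b : chartAlgFin N ℓ,
      ((b : ↥(modularFunctionFieldFull N)) : LaurentSeries ℚ) =
        serQ m (X.map (GaloisRep.ratLocalizedAt ℓ).subtype) ∧
      ρB N ℓ h b = serR m (X.map (res ℓ)) := by
  set P : PowerSeries ℚ := X.map (GaloisRep.ratLocalizedAt ℓ).subtype with hPdef
  have hP : Rep 1 (P.map (algebraMap ℚ ℂ)) (fun z => f z * qq 1 z ^ m) := by
    have e : P.map (algebraMap ℚ ℂ) =
        X.map ((algebraMap ℚ ℂ).comp (GaloisRep.ratLocalizedAt ℓ).subtype) := by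
      ext n
      simp [hPdef]
    rw [e]
    exact hX
  have hx : serQ m P ∈ intSeries ℓ := serQ_mem_intSeries ℓ m X
  have hmem := mem_chartAlgFin_of_mem_intSeries' N ℓ h
    (x := ⟨serQ m P, mem_full_of_isModFun hf m P hP⟩) hx (isIntegral_full_of_isModFun hf m P hP)
  refine ⟨⟨⟨serQ m P, mem_full_of_isModFun hf m P hP⟩, hmem⟩, rfl, ?_⟩
  rw [ρB_eq_redSeries N ℓ h _ hx]
  have e : (⟨serQ m P, hx⟩ : intSeries ℓ) = inclEquiv ℓ (serR m X) :=
    Subtype.ext (by rw [coe_inclEquiv]; exact (coeffMap_serR _ m X).symm)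
  show redSeries ℓ ⟨serQ m P, hx⟩ = _
  rw [e, redSeries_inclEquiv, coeffMap_serR]

variable {N} in
/-- integer-coefficient version -/
theorem exists_chart_of_isModFun_int {f : ℍ → ℂ} (hf : IsModFun N f) (m : ℕ)
    (X : PowerSeries ℤ)
    (hX : Rep 1 (X.map (Int.castRingHom ℂ)) (fun z => f z * qq 1 z ^ m)) :
    ∃ b : chartAlgFin N ℓ,
      ((b : ↥(modularFunctionFieldFull N)) : LaurentSeries ℚ) =
        serQ m (X.map (Int.castRingHom ℚ)) ∧
      ρB N ℓ h b = serR m (X.map (Int.castRingHom (ZMod ℓ))) := by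
  have e1 : (X.map (Int.castRingHom (Zl ℓ))).map
      ((algebraMap ℚ ℂ).comp (GaloisRep.ratLocalizedAt ℓ).subtype) =
      X.map (Int.castRingHom ℂ) := by
    ext n
    simp
  have e2 : (X.map (Int.castRingHom (Zl ℓ))).map (GaloisRep.ratLocalizedAt ℓ).subtype =
      X.map (Int.castRingHom ℚ) := by
    ext n
    simp
  have e3 : (X.map (Int.castRingHom (Zl ℓ))).map (res ℓ) =
      X.map (Int.castRingHom (ZMod ℓ)) := by
    ext n
    simp
  obtain ⟨b, hb1, hb2⟩ := exists_chart_of_isModFun ℓ h hf m (X.map (Int.castRingHom (Zl ℓ)))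
    (by rw [e1]; exact hX)
  exact ⟨b, by rw [hb1, e2], by rw [hb2, e3]⟩

end

end Fermat.Agent.S16.Bridge.Chart
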