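import Mathlib
import Fermat.Agent.S16.Bridge.Chart
import Fermat.Agent.S28.DeltaConj

set_option autoImplicit false

/-!
# S16 (B3c): `q`-expansion adapters for quotients by powers of `Δ`

* `rep_one_of_isMF` : a modular form on `Γ₀(N)` (function level, `S20.IsMF`) is represented by its
  Mathlib `q`-expansion, `Rep 1 (qExpansion 1 f) f`.
* `rep_inv_delta`, `rep_div_delta_pow` : `q^a · g / Δ^a = G · E⁻ᵃ`, `E = ∏ (1 - qⁿ)²⁴`
  (`etaInv R` is the Prelude series `dedekindEtaUnitInv` over `R`).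
* `isModFun_div_delta_pow` : `g / Δ^a` is `IsModFun N` for `g ∈ M_{12a}(Γ₀(N))`.
* `exists_chart_div_delta(_int)` : if moreover `g` has an `ℓ`-integral `q`-expansion `X` (`ℓ ∤ N`),
  then `g / Δ^a` gives an element `b` of the chart ring `chartAlgFin N ℓ` with `q`-expansion
  `q^(-a) X E⁻ᵃ` and `ρB b = q^(-a) X̄ Ē⁻ᵃ`.
-/

namespace Fermat.Agent.S16.Bridge.DivDelta

open ModularCurve ModularCurve.IgusaScheme UpperHalfPlane CongruenceSubgroup
open Fermat.Agent.S16.Bridge Fermat.Agent.S16.Bridge.Main Fermat.Agent.S16.Bridge.Chart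
  Fermat.Agent.S16.ChartQExp
open Fermat.Agent.S28 Fermat.Agent.S28.SeriesRed Fermat.Agent.S28.ZlBasics
open Fermat.Agent.S24.JPoly (qq Rep qq_one qq_ne_zero)
open Fermat.Agent.S24.EtaBridge (etaFun etaFun_ne_zero rep_dedekindEtaUnitInv)
open scoped MatrixGroups Manifold ModularForm

noncomputable section

local notation "Δ" => ModularForm.discriminant

local notation "𝕢" => Function.Periodic.qParam

/-! ### the `q`-expansion of a modular form -/

/-- a modular form on `Γ₀(N)` is `1`-periodic -/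
theorem isMF_vadd_one {N : ℕ} {k : ℤ} {f : ℍ → ℂ} (hf : Fermat.Agent.S20.IsMF N k f) (z : ℍ) :
    f ((1 : ℝ) +ᵥ z) = f z := by
  have hT : ModularGroup.T ∈ Gamma0 N := by
    rw [Gamma0_mem]
    simp [ModularGroup.T]
  have h2 := congrFun (hf.2.1 _ hT) z
  rw [ModularForm.SL_slash_apply, UpperHalfPlane.modular_T_smul] at h2
  have hden : denom ((ModularGroup.T : SL(2, ℤ)) : GL (Fin 2) ℝ) z = 1 := by
    rw [ModularGroup.denom_apply]
    simp [ModularGroup.T]
  rw [hden, one_zpow, mul_one] at h2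
  exact h2

/-- **A modular form on `Γ₀(N)` is represented by its Mathlib `q`-expansion.** -/
theorem rep_one_of_isMF {N : ℕ} {k : ℤ} {f : ℍ → ℂ} (hf : Fermat.Agent.S20.IsMF N k f) :
    Rep 1 (UpperHalfPlane.qExpansion (1 : ℝ) f) f := by
  have h := rep_of_bounded_level 1 hf.1 (fun z => by simpa using isMF_vadd_one hf z)
    (by simpa using hf.2.2 1)
  simpa using h

/-! ### division by `Δ` -/

/-- the inverse of `∏ (1 - qⁿ)²⁴` over a ring `R` -/
def etaInv (R : Type*) [CommRing R] : PowerSeries R :=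
  dedekindEtaUnitInv.map (Int.castRingHom R)

theorem etaInv_map {R S : Type*} [CommRing R] [CommRing S] (φ : R →+* S) :
    (etaInv R).map φ = etaInv S := by
  ext n
  simp [etaInv]

/-- `q / Δ = ∏ (1 - qⁿ)⁻²⁴` -/
theorem rep_inv_delta : Rep 1 (etaInv ℂ) (fun z => (Δ z)⁻¹ * qq 1 z ^ 1) := fun z => by
  have hq : ‖𝕢 1 (z : ℂ)‖ < 1 := Function.Periodic.norm_qParam_lt_one one_pos z.im_pos
  have h := rep_dedekindEtaUnitInv (𝕢 1 (z : ℂ)) hq
  have hq0 : 𝕢 1 (z : ℂ) ≠ 0 := Function.Periodic.qParam_ne_zero _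
  have he : etaFun (𝕢 1 (z : ℂ)) ^ 24 ≠ 0 := pow_ne_zero _ (etaFun_ne_zero hq)
  have hval : (Δ z)⁻¹ * qq 1 z ^ 1 = (etaFun (𝕢 1 (z : ℂ)) ^ 24)⁻¹ := by
    rw [DeltaConj.delta_eq_q_mul_eta, qq_one, pow_one]
    field_simp
  show HasSum _ ((Δ z)⁻¹ * qq 1 z ^ 1)
  rw [hval]
  simpa [qq_one, etaInv] using h

/-- `q^a g / Δ^a = G · (∏ (1 - qⁿ)⁻²⁴)^a` -/
theorem rep_div_delta_pow {G : PowerSeries ℂ} {g : ℍ → ℂ} (hG : Rep 1 G g) (a : ℕ) :
    Rep 1 (G * etaInv ℂ ^ a) (fun z => g z / Δ z ^ a * qq 1 z ^ a) := by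
  refine (hG.mul (rep_inv_delta.pow a)).congr fun z => ?_
  rw [div_eq_mul_inv, mul_pow, inv_pow, pow_one]
  ring

/-- `g / Δ^a` is a modular function for `g ∈ M_{12a}(Γ₀(N))` -/
theorem isModFun_div_delta_pow {N : ℕ} [NeZero N] {k : ℤ} {g : ℍ → ℂ}
    (hg : Fermat.Agent.S20.IsMF N k g) {a : ℕ} (hk : k = 12 * (a : ℤ)) :
    IsModFun N (fun z => g z / Δ z ^ a) := by
  have hΔ : IsWMF N ((a : ℤ) * 12) ((⇑CuspForm.discriminant : ℍ → ℂ) ^ a) :=
    (IsMF.isWMF (Fermat.Agent.S20.isCF_delta.isMF.of_levelOne)).pow a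
  have hk' : k = (a : ℤ) * 12 := by rw [hk]; ring
  subst hk'
  exact isModFun_div (IsMF.isWMF hg) hΔ
    (fun z => pow_ne_zero a (ModularForm.discriminant_ne_zero z))

/-! ### `q^(-1) E⁻¹` versus `j` -/

theorem serR_mul {R : Type*} [CommRing R] (m : ℕ) (X Y : PowerSeries R) :
    serR m (X * Y) = HahnSeries.ofPowerSeries ℤ R X * serR m Y := by
  simp only [serR, map_mul]
  ring

/-- `j = E₄³ · q⁻¹ E⁻¹` over any ring -/
theorem jqModC_eq (R : Type*) [CommRing R] :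
    jqModC R = HahnSeries.ofPowerSeries ℤ R ((eisenstein4.map (Int.castRingHom R)) ^ 3) *
      serR 1 (etaInv R) := by
  rw [← serR_mul, jqModC, serR, jNum, map_mul, map_pow, etaInv]
  rfl

/-- `E₄ ≡ 1` modulo any divisor of `240` -/
theorem eisenstein4_map_eq_one {R : Type*} [CommRing R] (h240 : (240 : R) = 0) :
    eisenstein4.map (Int.castRingHom R) = 1 := by
  ext n
  rw [PowerSeries.coeff_map, eisenstein4, PowerSeries.coeff_mk, PowerSeries.coeff_one]
  split_ifs with hn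
  · simp
  · rw [eq_intCast, Int.cast_mul]
    have : ((240 : ℤ) : R) = 0 := by exact_mod_cast h240
    rw [this, zero_mul]

/-- `q⁻¹ E⁻¹ = 1/Δ̄ = j̄` in characteristic `2`, `3`, `5` -/
theorem serR_one_etaInv {R : Type*} [CommRing R] (h240 : (240 : R) = 0) :
    serR 1 (etaInv R) = jqModC R := by
  rw [jqModC_eq, eisenstein4_map_eq_one h240, one_pow, map_one, one_mul]

/-! ### the chart element of `g / Δ^a` -/

section Chart

variable {N : ℕ} [NeZero N] (ℓ : ℕ) [Fact ℓ.Prime] (h : ¬ ℓ ∣ N)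

/-- **`g / Δ^a` in the chart ring.**  For `g ∈ M_{12a}(Γ₀(N))` with `ℓ`-integral `q`-expansion `X`
(`ℓ ∤ N`), the modular function `g / Δ^a` defines an element `b` of `chartAlgFin N ℓ` with
`q`-expansion `q^(-a) X E⁻ᵃ`, and `ρB b = q^(-a) X̄ Ē⁻ᵃ`. -/
theorem exists_chart_div_delta {k : ℤ} {g : ℍ → ℂ} (hg : Fermat.Agent.S20.IsMF N k g) {a : ℕ}
    (hk : k = 12 * (a : ℤ)) (X : PowerSeries (Zl ℓ))
    (hX : Rep 1 (X.map ((algebraMap ℚ ℂ).comp (GaloisRep.ratLocalizedAt ℓ).subtype)) g) :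
    ∃ b : chartAlgFin N ℓ,
      ((b : ↥(modularFunctionFieldFull N)) : LaurentSeries ℚ) =
        serQ a ((X * etaInv (Zl ℓ) ^ a).map (GaloisRep.ratLocalizedAt ℓ).subtype) ∧
      ρB N ℓ h b = serR a (X.map (res ℓ) * etaInv (ZMod ℓ) ^ a) := by
  have hf := isModFun_div_delta_pow hg hk
  have hrep := rep_div_delta_pow hX a
  have e : X.map ((algebraMap ℚ ℂ).comp (GaloisRep.ratLocalizedAt ℓ).subtype) * etaInv ℂ ^ a =
      (X * etaInv (Zl ℓ) ^ a).map
        ((algebraMap ℚ ℂ).comp (GaloisRep.ratLocalizedAt ℓ).subtype) := by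
    rw [map_mul, map_pow, etaInv_map]
  obtain ⟨b, hb1, hb2⟩ := exists_chart_of_isModFun ℓ h hf a (X * etaInv (Zl ℓ) ^ a)
    (by rw [← e]; exact hrep)
  refine ⟨b, hb1, ?_⟩
  rw [hb2, map_mul, map_pow, etaInv_map]

/-- integer-coefficient version of `exists_chart_div_delta` -/
theorem exists_chart_div_delta_int {k : ℤ} {g : ℍ → ℂ} (hg : Fermat.Agent.S20.IsMF N k g)
    {a : ℕ} (hk : k = 12 * (a : ℤ)) (X : PowerSeries ℤ)
    (hX : Rep 1 (X.map (Int.castRingHom ℂ)) g) :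
    ∃ b : chartAlgFin N ℓ,
      ((b : ↥(modularFunctionFieldFull N)) : LaurentSeries ℚ) =
        serQ a ((X * dedekindEtaUnitInv ^ a).map (Int.castRingHom ℚ)) ∧
      ρB N ℓ h b = serR a ((X * dedekindEtaUnitInv ^ a).map (Int.castRingHom (ZMod ℓ))) := by
  have hf := isModFun_div_delta_pow hg hk
  have hrep := rep_div_delta_pow hX a
  have e : X.map (Int.castRingHom ℂ) * etaInv ℂ ^ a =
      (X * dedekindEtaUnitInv ^ a).map (Int.castRingHom ℂ) := by
    rw [map_mul, map_pow]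
    rfl
  exact exists_chart_of_isModFun_int ℓ h hf a (X * dedekindEtaUnitInv ^ a)
    (by rw [← e]; exact hrep)

end Chart

end

end Fermat.Agent.S16.Bridge.DivDelta
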